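import Mathlib

open NumberField Polynomial

namespace Fermat.Agent.Kummer.CaseI

variable {p : ℕ} [hp : Fact p.Prime] {K : Type*} [Field K] [NumberField K]
  [IsCyclotomicExtension {p} ℚ K]

theorem int_dvd_of_pi_dvd (hp2 : p ≠ 2) {ζ : K} (hζ : IsPrimitiveRoot ζ p) {n : ℤ}
    (h : hζ.toInteger - 1 ∣ (n : 𝓞 K)) : (p : ℤ) ∣ n := by
  have hnorm := hζ.norm_toInteger_sub_one_of_prime_ne_two' hp2
  have hprime : Prime (Algebra.norm ℤ (hζ.toInteger - 1)) := by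
    rw [hnorm]; exact Nat.prime_iff_prime_int.1 hp.1
  have := (Ideal.norm_dvd_iff hprime).2 h
  rwa [hnorm] at this

omit [NumberField K] [IsCyclotomicExtension {p} ℚ K] in
theorem pi_dvd_pow_sub_one {ζ : K} (hζ : IsPrimitiveRoot ζ p) (m : ℕ) :
    hζ.toInteger - 1 ∣ hζ.toInteger ^ m - 1 := by
  simpa using sub_dvd_pow_sub_pow hζ.toInteger 1 m

theorem exists_int_dvd_pow_sub {ζ : K} (hζ : IsPrimitiveRoot ζ p) (x : 𝓞 K) :
    ∃ n : ℤ, (p : 𝓞 K) ∣ x ^ p - n := by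
  have htop := IsCyclotomicExtension.Rat.adjoin_singleton_eq_top hζ
  have hx : x ∈ Algebra.adjoin ℤ {hζ.toInteger} := by rw [htop]; trivial
  induction hx using Algebra.adjoin_induction with
  | mem y hy =>
    rw [Set.mem_singleton_iff] at hy
    subst hy
    refine ⟨1, ?_⟩
    rw [hζ.toInteger_isPrimitiveRoot.pow_eq_one]
    simp
  | algebraMap r =>
    refine ⟨r ^ p, ?_⟩
    simp
  | add y z _ _ hy hz =>
    obtain ⟨n, hn⟩ := hy
    obtain ⟨m, hm⟩ := hz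
    obtain ⟨r, hr⟩ := exists_add_pow_prime_eq hp.1 y z
    refine ⟨n + m, ?_⟩
    rw [hr]
    have : y ^ p + z ^ p + (p : 𝓞 K) * y * z * r - ((n + m : ℤ) : 𝓞 K) =
        (y ^ p - n) + (z ^ p - m) + (p : 𝓞 K) * (y * z * r) := by push_cast; ring
    rw [this]
    exact dvd_add (dvd_add hn hm) (dvd_mul_right _ _)
  | mul y z _ _ hy hz =>
    obtain ⟨n, hn⟩ := hy
    obtain ⟨m, hm⟩ := hz
    refine ⟨n * m, ?_⟩
    have : (y * z) ^ p - ((n * m : ℤ) : 𝓞 K) = (y ^ p - n) * z ^ p + n * (z ^ p - m) := by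
      push_cast; ring
    rw [this]
    exact dvd_add (dvd_mul_of_dvd_left hn _) (dvd_mul_of_dvd_right hm _)

theorem dvd_coeff_zero {ζ : K} (hζ : IsPrimitiveRoot ζ p)
    (x₀ c₁ c₂ c₃ : ℤ) (e₁ e₂ e₃ : ℕ)
    (h₁ : 0 < e₁ ∧ e₁ < p - 1) (h₂ : 0 < e₂ ∧ e₂ < p - 1) (h₃ : 0 < e₃ ∧ e₃ < p - 1)
    (h : (p : 𝓞 K) ∣ (x₀ : 𝓞 K) + c₁ * hζ.toInteger ^ e₁ + c₂ * hζ.toInteger ^ e₂
      + c₃ * hζ.toInteger ^ e₃) :
    (p : ℤ) ∣ x₀ := by
  have : NeZero p := ⟨hp.1.ne_zero⟩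
  let B := hζ.integralPowerBasis
  have hdim : B.dim = p - 1 := by
    rw [hζ.integralPowerBasis_dim, Nat.totient_prime hp.1]
  have hgen : B.gen = hζ.toInteger := hζ.integralPowerBasis_gen
  have h0 : 0 < B.dim := by omega
  have hpow : ∀ (e : ℕ) (he : e < B.dim), hζ.toInteger ^ e = B.basis ⟨e, he⟩ := by
    intro e he
    rw [B.basis_eq_pow, hgen]
  obtain ⟨y, hy⟩ := h
  have key := congrArg (B.basis.coord ⟨0, h0⟩) hy
  have e1 : (x₀ : 𝓞 K) = x₀ • B.basis ⟨0, h0⟩ := by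
    rw [← hpow 0 h0]; simp
  have e2 : (c₁ : 𝓞 K) * hζ.toInteger ^ e₁ = c₁ • B.basis ⟨e₁, by omega⟩ := by
    rw [← hpow e₁ (by omega)]; simp
  have e3 : (c₂ : 𝓞 K) * hζ.toInteger ^ e₂ = c₂ • B.basis ⟨e₂, by omega⟩ := by
    rw [← hpow e₂ (by omega)]; simp
  have e4 : (c₃ : 𝓞 K) * hζ.toInteger ^ e₃ = c₃ • B.basis ⟨e₃, by omega⟩ := by
    rw [← hpow e₃ (by omega)]; simp
  have e5 : (p : 𝓞 K) * y = (p : ℤ) • y := by simp
  rw [e1, e2, e3, e4, e5] at key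
  simp only [map_add, map_smul, Module.Basis.coord_apply, Module.Basis.repr_self,
    Finsupp.single_apply, smul_eq_mul] at key
  have n1 : (⟨e₁, by omega⟩ : Fin B.dim) ≠ ⟨0, h0⟩ := by
    intro hh; have := congrArg Fin.val hh; simp at this; omega
  have n2 : (⟨e₂, by omega⟩ : Fin B.dim) ≠ ⟨0, h0⟩ := by
    intro hh; have := congrArg Fin.val hh; simp at this; omega
  have n3 : (⟨e₃, by omega⟩ : Fin B.dim) ≠ ⟨0, h0⟩ := by
    intro hh; have := congrArg Fin.val hh; simp at this; omega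
  rw [if_neg n1, if_neg n2, if_neg n3] at key
  simp at key
  exact ⟨_, key⟩

omit hp in
theorem isCMField_of_three_le (hp3 : 3 ≤ p) : IsCMField K :=
  IsCyclotomicExtension.Rat.isCMField K (S := {p}) ⟨p, rfl, by omega⟩

variable (K) in
noncomputable def conj [IsCMField K] : 𝓞 K ≃+* 𝓞 K :=
  RingOfIntegers.mapRingEquiv (IsCMField.complexConj K).toRingEquiv

omit [IsCyclotomicExtension {p} ℚ K] in
theorem conj_zeta [IsCMField K] {ζ : K} (hζ : IsPrimitiveRoot ζ p) :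
    conj K hζ.toInteger = hζ.toInteger ^ (p - 1) := by
  have : NeZero p := ⟨hp.1.ne_zero⟩
  have hζ' := hζ.toInteger_isPrimitiveRoot
  have hu : IsUnit hζ.toInteger := hζ'.isUnit hp.1.ne_zero
  have htor : hu.unit ∈ Units.torsion K := by
    refine (CommGroup.mem_torsion _).mpr (isOfFinOrder_iff_pow_eq_one.mpr ⟨p, hp.1.pos, ?_⟩)
    ext
    simp [hζ'.pow_eq_one]
  have h1 := IsCMField.complexConj_torsion K ⟨hu.unit, htor⟩
  apply RingOfIntegers.ext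
  have h2 : (algebraMap (𝓞 K) K) (hζ.toInteger ^ (p - 1)) = ζ⁻¹ := by
    rw [map_pow]
    have : (algebraMap (𝓞 K) K) hζ.toInteger = ζ := rfl
    rw [this]
    have h3 : ζ ^ (p - 1) * ζ = 1 := by
      rw [← pow_succ, Nat.sub_add_cancel hp.1.pos, hζ.pow_eq_one]
    exact eq_inv_of_mul_eq_one_left h3
  rw [show (↑(hζ.toInteger ^ (p - 1)) : K) = ζ⁻¹ from h2]
  exact h1

theorem pi_dvd_conj_sub_self [IsCMField K] {ζ : K} (hζ : IsPrimitiveRoot ζ p) (x : 𝓞 K) :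
    hζ.toInteger - 1 ∣ conj K x - x := by
  have htop := IsCyclotomicExtension.Rat.adjoin_singleton_eq_top hζ
  have hx : x ∈ Algebra.adjoin ℤ {hζ.toInteger} := by rw [htop]; trivial
  induction hx using Algebra.adjoin_induction with
  | mem y hy =>
    rw [Set.mem_singleton_iff] at hy
    subst hy
    rw [conj_zeta hζ]
    have h1 := pi_dvd_pow_sub_one hζ (p - 1)
    have : hζ.toInteger ^ (p - 1) - hζ.toInteger =
        (hζ.toInteger ^ (p - 1) - 1) - (hζ.toInteger - 1) := by ring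
    rw [this]
    exact dvd_sub h1 dvd_rfl
  | algebraMap r =>
    simp
  | add y z _ _ hy hz =>
    have : conj K (y + z) - (y + z) = (conj K y - y) + (conj K z - z) := by
      rw [map_add]; ring
    rw [this]
    exact dvd_add hy hz
  | mul y z _ _ hy hz =>
    have : conj K (y * z) - (y * z) = conj K y * (conj K z - z) + (conj K y - y) * z := by
      rw [map_mul]; ring
    rw [this]
    exact dvd_add (dvd_mul_of_dvd_right hz _) (dvd_mul_of_dvd_left hy _)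

theorem unit_mul_conj_inv_pow [IsCMField K] (hp2 : p ≠ 2) (u : (𝓞 K)ˣ) :
    ((u : 𝓞 K) * conj K ((u⁻¹ : (𝓞 K)ˣ) : 𝓞 K)) ^ (2 * p) = 1 := by
  have : NeZero p := ⟨hp.1.ne_zero⟩
  have hord : Units.torsionOrder K = 2 * p := by
    rw [IsCyclotomicExtension.Rat.torsionOrder_eq (n := p) (K := K)]
    have : ¬ Even p := by
      rw [Nat.not_even_iff_odd]
      exact hp.1.odd_of_ne_two hp2
    rw [if_neg this]
  have h1 : (IsCMField.unitsMulComplexConjInv K u) ^ (2 * p) = 1 := by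
    rw [← hord]
    exact pow_card_eq_one'
  have h2 := congrArg (fun t : Units.torsion K => ((t : (𝓞 K)ˣ) : 𝓞 K)) h1
  simp only [Subgroup.coe_pow, Units.val_pow_eq_pow_val, OneMemClass.coe_one, Units.val_one,
    IsCMField.unitsMulComplexConjInv_apply, Units.val_mul] at h2
  convert h2 using 2
  rw [← map_inv]
  rfl

theorem unit_lemma [IsCMField K] (hp2 : p ≠ 2) {ζ : K} (hζ : IsPrimitiveRoot ζ p)
    (u : (𝓞 K)ˣ) : ∃ j < p, (u : 𝓞 K) = hζ.toInteger ^ j * conj K u := by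
  have : NeZero p := ⟨hp.1.ne_zero⟩
  have hζ' := hζ.toInteger_isPrimitiveRoot
  have htp := unit_mul_conj_inv_pow hp2 u
  set t := (u : 𝓞 K) * conj K ((u⁻¹ : (𝓞 K)ˣ) : 𝓞 K) with ht
  have hu : (u : 𝓞 K) = t * conj K u := by
    rw [ht, mul_assoc, ← map_mul]; simp
  have hodd : Odd p := hp.1.odd_of_ne_two hp2
  have h2 : (t ^ p) ^ 2 = 1 := by rw [← pow_mul, mul_comm]; exact htp
  rcases sq_eq_one_iff.mp h2 with h | h
  · obtain ⟨j, hj, hjt⟩ := hζ'.eq_pow_of_pow_eq_one h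
    exact ⟨j, hj, by rw [hjt]; exact hu⟩
  · exfalso
    have h3 : (-t) ^ p = 1 := by rw [hodd.neg_pow, h]; simp
    obtain ⟨j, hj, hjt⟩ := hζ'.eq_pow_of_pow_eq_one h3
    have hG := pi_dvd_conj_sub_self hζ (u : 𝓞 K)
    have h4 : (u : 𝓞 K) + conj K u = -(hζ.toInteger ^ j - 1) * conj K u := by
      have h9 : t = -hζ.toInteger ^ j := by rw [hjt]; ring
      have hu' : (u : 𝓞 K) = -hζ.toInteger ^ j * conj K u := by rw [← h9]; exact hu
      linear_combination hu'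
    have h5 : hζ.toInteger - 1 ∣ (u : 𝓞 K) + conj K u := by
      rw [h4]
      exact dvd_mul_of_dvd_left ((pi_dvd_pow_sub_one hζ j).neg_right) _
    have h6 : hζ.toInteger - 1 ∣ 2 * (u : 𝓞 K) := by
      have : 2 * (u : 𝓞 K) = ((u : 𝓞 K) + conj K u) - (conj K u - u) := by ring
      rw [this]
      exact dvd_sub h5 hG
    rw [Units.dvd_mul_right] at h6
    have h7 : (p : ℤ) ∣ 2 := by
      apply int_dvd_of_pi_dvd hp2 hζ
      simpa using h6
    have h8 := Int.le_of_dvd (by norm_num) h7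
    have := hp.1.two_le
    omega

theorem not_pi_dvd (hp2 : p ≠ 2) {ζ : K} (hζ : IsPrimitiveRoot ζ p) {a b c : ℤ}
    (hc : ¬ (p : ℤ) ∣ c) (h : a ^ p + b ^ p = c ^ p) :
    ¬ hζ.toInteger - 1 ∣ (a : 𝓞 K) + hζ.toInteger * b := by
  intro hdvd
  have h1 : hζ.toInteger - 1 ∣ ((a + b : ℤ) : 𝓞 K) := by
    have : ((a + b : ℤ) : 𝓞 K) =
        ((a : 𝓞 K) + hζ.toInteger * b) - (hζ.toInteger - 1) * b := by
      push_cast; ring
    rw [this]
    exact dvd_sub hdvd (dvd_mul_right _ _)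
  have h2 : (p : ℤ) ∣ a + b := int_dvd_of_pi_dvd hp2 hζ h1
  have hodd : Odd p := hp.1.odd_of_ne_two hp2
  have h3 : a + b ∣ a ^ p + b ^ p := hodd.add_dvd_pow_add_pow a b
  have h4 : (p : ℤ) ∣ c ^ p := h ▸ h2.trans h3
  exact hc ((Nat.prime_iff_prime_int.1 hp.1).dvd_of_dvd_pow h4)

theorem isCoprime_factors [IsPrincipalIdealRing (𝓞 K)] {ζ : K} (hζ : IsPrimitiveRoot ζ p)
    {a b : ℤ} (hab : IsCoprime a b)
    (hnd : ¬ hζ.toInteger - 1 ∣ (a : 𝓞 K) + hζ.toInteger * b)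
    {μ : 𝓞 K} (hμ : μ ∈ nthRootsFinset p (1 : 𝓞 K)) (hne : μ ≠ hζ.toInteger) :
    IsCoprime ((a : 𝓞 K) + hζ.toInteger * b) ((a : 𝓞 K) + μ * b) := by
  have : NeZero p := ⟨hp.1.ne_zero⟩
  have hζ' := hζ.toInteger_isPrimitiveRoot
  have hζmem : hζ.toInteger ∈ nthRootsFinset p (1 : 𝓞 K) :=
    (mem_nthRootsFinset hp.1.pos 1).2 hζ'.pow_eq_one
  have hassoc : Associated (hζ.toInteger - 1) (hζ.toInteger - μ) :=
    hζ'.nthRootsFinset_pairwise_associated_sub_one_sub_of_prime hp.1 hζmem hμ (Ne.symm hne)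
  have hprime : Prime (hζ.toInteger - 1) := hζ.zeta_sub_one_prime'
  have hcop1 : IsCoprime (hζ.toInteger - 1) ((a : 𝓞 K) + hζ.toInteger * b) :=
    hprime.coprime_iff_not_dvd.2 hnd
  obtain ⟨w, hw⟩ := hassoc
  have hcop2 : IsCoprime (hζ.toInteger - μ) ((a : 𝓞 K) + hζ.toInteger * b) := by
    rw [← hw]
    exact (isCoprime_mul_unit_right_left w.isUnit _ _).2 hcop1
  obtain ⟨α, β, hαβ⟩ := hcop2
  obtain ⟨u, v, huv⟩ := hab
  have huv' : (u : 𝓞 K) * a + v * b = 1 := by exact_mod_cast congrArg (Int.cast : ℤ → 𝓞 K) huv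
  exact ⟨α * (v - u * μ) + β, α * (u * hζ.toInteger - v), by
    linear_combination hαβ + α * (hζ.toInteger - μ) * huv'⟩

theorem core [IsPrincipalIdealRing (𝓞 K)] (hp5 : 5 ≤ p) {a b c : ℤ} (hab : IsCoprime a b)
    (hpa : ¬ (p : ℤ) ∣ a) (hpb : ¬ (p : ℤ) ∣ b) (hpc : ¬ (p : ℤ) ∣ c)
    (h : a ^ p + b ^ p = c ^ p) : (p : ℤ) ∣ a - b := by
  classical
  have hp2 : p ≠ 2 := by omega
  have : NeZero p := ⟨hp.1.ne_zero⟩
  have : IsCMField K := isCMField_of_three_le (p := p) (by omega)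
  have hζ := IsCyclotomicExtension.zeta_spec p ℚ K
  have hζ' := hζ.toInteger_isPrimitiveRoot
  have hodd : Odd p := hp.1.odd_of_ne_two hp2
  have hnd := not_pi_dvd hp2 hζ hpc h
  have hζmem : hζ.toInteger ∈ nthRootsFinset p (1 : 𝓞 K) :=
    (mem_nthRootsFinset hp.1.pos 1).2 hζ'.pow_eq_one
  have hfac : ((a : 𝓞 K) + hζ.toInteger * b) *
      ∏ μ ∈ (nthRootsFinset p (1 : 𝓞 K)).erase hζ.toInteger, ((a : 𝓞 K) + μ * b)
      = (c : 𝓞 K) ^ p := by
    have h1 := Finset.mul_prod_erase (nthRootsFinset p (1 : 𝓞 K))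
      (fun μ => (a : 𝓞 K) + μ * b) hζmem
    rw [h1, ← hζ'.pow_add_pow_eq_prod_add_mul _ _ hodd]
    exact_mod_cast congrArg (Int.cast : ℤ → 𝓞 K) h
  have hcop : IsCoprime ((a : 𝓞 K) + hζ.toInteger * b)
      (∏ μ ∈ (nthRootsFinset p (1 : 𝓞 K)).erase hζ.toInteger, ((a : 𝓞 K) + μ * b)) := by
    apply IsCoprime.prod_right
    intro μ hμ
    rw [Finset.mem_erase] at hμ
    exact isCoprime_factors hζ hab hnd hμ.2 hμ.1
  obtain ⟨d, hd⟩ := exists_associated_pow_of_mul_eq_pow' hcop hfac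
  obtain ⟨u, hu⟩ := hd
  obtain ⟨m, hm⟩ := exists_int_dvd_pow_sub hζ d
  obtain ⟨j, hj, huj⟩ := unit_lemma hp2 hζ u
  have hconj : conj K d ^ p * conj K u = (a : 𝓞 K) + hζ.toInteger ^ (p - 1) * b := by
    have := congrArg (conj K) hu
    rw [map_mul, map_pow, map_add, map_mul, conj_zeta hζ] at this
    simpa using this
  have hm' : (p : 𝓞 K) ∣ conj K d ^ p - m := by
    have := map_dvd (conj K) hm
    simpa using this
  have hE : (p : 𝓞 K) ∣ ((a : 𝓞 K) + hζ.toInteger * b)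
      - hζ.toInteger ^ j * ((a : 𝓞 K) + hζ.toInteger ^ (p - 1) * b) := by
    have : ((a : 𝓞 K) + hζ.toInteger * b)
        - hζ.toInteger ^ j * ((a : 𝓞 K) + hζ.toInteger ^ (p - 1) * b)
        = hζ.toInteger ^ j * conj K u * ((d ^ p - m) - (conj K d ^ p - m)) := by
      rw [← hu, ← hconj]
      linear_combination (d ^ p) * huj
    rw [this]
    exact dvd_mul_of_dvd_right (dvd_sub hm hm') _
  have hinv : hζ.toInteger * hζ.toInteger ^ (p - 1) = 1 := by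
    rw [← pow_succ', Nat.sub_add_cancel hp.1.pos, hζ'.pow_eq_one]
  have hcases : j = 0 ∨ j = 1 ∨ j = 2 ∨ (3 ≤ j ∧ j ≤ p - 2) ∨ j = p - 1 := by omega
  rcases hcases with rfl | rfl | rfl | ⟨hj3, hjp⟩ | rfl
  · exfalso
    have key : (p : 𝓞 K) ∣ ((-b : ℤ) : 𝓞 K) + ((b : ℤ) : 𝓞 K) * hζ.toInteger ^ 2
        + ((0 : ℤ) : 𝓞 K) * hζ.toInteger ^ 1 + ((0 : ℤ) : 𝓞 K) * hζ.toInteger ^ 1 := by
      have : ((-b : ℤ) : 𝓞 K) + ((b : ℤ) : 𝓞 K) * hζ.toInteger ^ 2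
          + ((0 : ℤ) : 𝓞 K) * hζ.toInteger ^ 1 + ((0 : ℤ) : 𝓞 K) * hζ.toInteger ^ 1
          = hζ.toInteger * (((a : 𝓞 K) + hζ.toInteger * b)
            - hζ.toInteger ^ 0 * ((a : 𝓞 K) + hζ.toInteger ^ (p - 1) * b)) := by
        push_cast
        linear_combination (b : 𝓞 K) * hinv
      rw [this]
      exact dvd_mul_of_dvd_right hE _
    have := dvd_coeff_zero hζ (-b) b 0 0 2 1 1 ⟨by omega, by omega⟩ ⟨by omega, by omega⟩
      ⟨by omega, by omega⟩ key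
    exact hpb (by rwa [dvd_neg] at this)
  · have key : (p : 𝓞 K) ∣ ((a - b : ℤ) : 𝓞 K) + ((b - a : ℤ) : 𝓞 K) * hζ.toInteger ^ 1
        + ((0 : ℤ) : 𝓞 K) * hζ.toInteger ^ 1 + ((0 : ℤ) : 𝓞 K) * hζ.toInteger ^ 1 := by
      have : ((a - b : ℤ) : 𝓞 K) + ((b - a : ℤ) : 𝓞 K) * hζ.toInteger ^ 1
          + ((0 : ℤ) : 𝓞 K) * hζ.toInteger ^ 1 + ((0 : ℤ) : 𝓞 K) * hζ.toInteger ^ 1
          = (((a : 𝓞 K) + hζ.toInteger * b)
            - hζ.toInteger ^ 1 * ((a : 𝓞 K) + hζ.toInteger ^ (p - 1) * b)) := by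
        push_cast
        linear_combination (b : 𝓞 K) * hinv
      rw [this]
      exact hE
    exact dvd_coeff_zero hζ (a - b) (b - a) 0 0 1 1 1 ⟨by omega, by omega⟩ ⟨by omega, by omega⟩
      ⟨by omega, by omega⟩ key
  · exfalso
    have key : (p : 𝓞 K) ∣ ((a : ℤ) : 𝓞 K) + ((-a : ℤ) : 𝓞 K) * hζ.toInteger ^ 2
        + ((0 : ℤ) : 𝓞 K) * hζ.toInteger ^ 1 + ((0 : ℤ) : 𝓞 K) * hζ.toInteger ^ 1 := by
      have : ((a : ℤ) : 𝓞 K) + ((-a : ℤ) : 𝓞 K) * hζ.toInteger ^ 2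
          + ((0 : ℤ) : 𝓞 K) * hζ.toInteger ^ 1 + ((0 : ℤ) : 𝓞 K) * hζ.toInteger ^ 1
          = (((a : 𝓞 K) + hζ.toInteger * b)
            - hζ.toInteger ^ 2 * ((a : 𝓞 K) + hζ.toInteger ^ (p - 1) * b)) := by
        push_cast
        linear_combination (b : 𝓞 K) * hζ.toInteger * hinv
      rw [this]
      exact hE
    exact hpa (dvd_coeff_zero hζ a (-a) 0 0 2 1 1 ⟨by omega, by omega⟩ ⟨by omega, by omega⟩
      ⟨by omega, by omega⟩ key)
  · exfalso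
    have hj1 : hζ.toInteger ^ j = hζ.toInteger ^ (j - 1) * hζ.toInteger := by
      rw [← pow_succ, Nat.sub_add_cancel (by omega)]
    have key : (p : 𝓞 K) ∣ ((a : ℤ) : 𝓞 K) + ((b : ℤ) : 𝓞 K) * hζ.toInteger ^ 1
        + ((-a : ℤ) : 𝓞 K) * hζ.toInteger ^ j + ((-b : ℤ) : 𝓞 K) * hζ.toInteger ^ (j - 1) := by
      have : ((a : ℤ) : 𝓞 K) + ((b : ℤ) : 𝓞 K) * hζ.toInteger ^ 1
          + ((-a : ℤ) : 𝓞 K) * hζ.toInteger ^ j + ((-b : ℤ) : 𝓞 K) * hζ.toInteger ^ (j - 1)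
          = (((a : 𝓞 K) + hζ.toInteger * b)
            - hζ.toInteger ^ j * ((a : 𝓞 K) + hζ.toInteger ^ (p - 1) * b)) := by
        push_cast
        linear_combination (b : 𝓞 K) * hζ.toInteger ^ (j - 1) * hinv
          + (b : 𝓞 K) * hζ.toInteger ^ (p - 1) * hj1
      rw [this]
      exact hE
    exact hpa (dvd_coeff_zero hζ a b (-a) (-b) 1 j (j - 1) ⟨by omega, by omega⟩
      ⟨by omega, by omega⟩ ⟨by omega, by omega⟩ key)
  · exfalso
    have key : (p : 𝓞 K) ∣ ((-b : ℤ) : 𝓞 K) + ((a : ℤ) : 𝓞 K) * hζ.toInteger ^ 2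
        + ((b : ℤ) : 𝓞 K) * hζ.toInteger ^ 3 + ((-a : ℤ) : 𝓞 K) * hζ.toInteger ^ 1 := by
      have : ((-b : ℤ) : 𝓞 K) + ((a : ℤ) : 𝓞 K) * hζ.toInteger ^ 2
          + ((b : ℤ) : 𝓞 K) * hζ.toInteger ^ 3 + ((-a : ℤ) : 𝓞 K) * hζ.toInteger ^ 1
          = hζ.toInteger ^ 2 * (((a : 𝓞 K) + hζ.toInteger * b)
            - hζ.toInteger ^ (p - 1) * ((a : 𝓞 K) + hζ.toInteger ^ (p - 1) * b)) := by
        push_cast
        linear_combination ((a : 𝓞 K) * hζ.toInteger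
          + (b : 𝓞 K) * (hζ.toInteger * hζ.toInteger ^ (p - 1) + 1)) * hinv
      rw [this]
      exact dvd_mul_of_dvd_right hE _
    have := dvd_coeff_zero hζ (-b) a b (-a) 2 3 1 ⟨by omega, by omega⟩ ⟨by omega, by omega⟩
      ⟨by omega, by omega⟩ key
    exact hpb (by rwa [dvd_neg] at this)

end Fermat.Agent.Kummer.CaseI

namespace Fermat.Agent.Kummer

theorem caseI {p : ℕ} [Fact p.Prime] (hp5 : 5 ≤ p) {K : Type*} [Field K] [NumberField K]
    [IsCyclotomicExtension {p} ℚ K] [IsPrincipalIdealRing (𝓞 K)] {a b c : ℤ}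
    (hgcd : IsCoprime a b) (hpabc : ¬ (p : ℤ) ∣ a * b * c) (h : a ^ p + b ^ p = c ^ p) :
    False := by
  have hp : p.Prime := Fact.out
  have hpI : Prime (p : ℤ) := Nat.prime_iff_prime_int.1 hp
  have hpa : ¬ (p : ℤ) ∣ a := fun hd =>
    hpabc (dvd_mul_of_dvd_left (dvd_mul_of_dvd_left hd b) c)
  have hpb : ¬ (p : ℤ) ∣ b := fun hd =>
    hpabc (dvd_mul_of_dvd_left (dvd_mul_of_dvd_right hd a) c)
  have hpc : ¬ (p : ℤ) ∣ c := fun hd => hpabc (dvd_mul_of_dvd_right hd _)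
  have hodd : Odd p := hp.odd_of_ne_two (by omega)
  have h1 : (p : ℤ) ∣ a - b := CaseI.core (K := K) hp5 hgcd hpa hpb hpc h
  have hac : IsCoprime a c := by
    have h2 : IsCoprime a (b ^ p) := hgcd.pow_right
    have h3 : IsCoprime a (c ^ p) := by
      rw [← h]
      have : a ^ p + b ^ p = b ^ p + a ^ (p - 1) * a := by
        rw [← pow_succ, Nat.sub_add_cancel hp.pos]; ring
      rw [this]
      exact h2.add_mul_right_right _
    exact (IsCoprime.pow_right_iff hp.pos).1 h3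
  have h' : a ^ p + (-c) ^ p = (-b) ^ p := by
    rw [hodd.neg_pow, hodd.neg_pow]; linarith
  have h2 : (p : ℤ) ∣ a - (-c) :=
    CaseI.core (K := K) hp5 hac.neg_right hpa (by rwa [dvd_neg]) (by rwa [dvd_neg]) h'
  have e1 : ((a : ZMod p)) - b = 0 := by
    have := (ZMod.intCast_zmod_eq_zero_iff_dvd (a - b) p).2 h1
    simpa using this
  have e2 : ((a : ZMod p)) + c = 0 := by
    have := (ZMod.intCast_zmod_eq_zero_iff_dvd (a - (-c)) p).2 h2
    simpa using this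
  have e3 : ((a : ZMod p)) + b = c := by
    have := congrArg (Int.cast : ℤ → ZMod p) h
    simpa [ZMod.pow_card] using this
  have e4 : ((3 * a : ℤ) : ZMod p) = 0 := by
    push_cast
    linear_combination e1 + e2 + e3
  rw [ZMod.intCast_zmod_eq_zero_iff_dvd] at e4
  rcases hpI.dvd_or_dvd e4 with h3 | h3
  · have := Int.le_of_dvd (by norm_num) h3
    omega
  · exact hpa h3

end Fermat.Agent.Kummer
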