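import Mathlib

set_option autoImplicit false

open Polynomial

namespace Fermat.Agent.Kummer.CaseII

section abstract

variable {O : Type*} [CommRing O] [IsDomain O] {p : ℕ} {ζ : O}

theorem assoc_sub (hp : p.Prime) (hζ : IsPrimitiveRoot ζ p) {μ ν : O}
    (hμ : μ ∈ nthRootsFinset p (1 : O)) (hν : ν ∈ nthRootsFinset p (1 : O)) (h : μ ≠ ν) :
    Associated (ζ - 1) (μ - ν) :=
  hζ.nthRootsFinset_pairwise_associated_sub_one_sub_of_prime hp hμ hν h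

theorem pi_dvd_sub (hp : p.Prime) (hζ : IsPrimitiveRoot ζ p) {μ ν : O}
    (hμ : μ ∈ nthRootsFinset p (1 : O)) (hν : ν ∈ nthRootsFinset p (1 : O)) :
    ζ - 1 ∣ μ - ν := by
  by_cases h : μ = ν
  · rw [h, sub_self]; exact dvd_zero _
  · exact (assoc_sub hp hζ hμ hν h).dvd

theorem pi_dvd_all (hp : p.Prime) (hodd : Odd p) (hζ : IsPrimitiveRoot ζ p)
    (hπ : Prime (ζ - 1)) {x y z : O} {ε : Oˣ} {k : ℕ} (hk : 0 < k)
    (h : x ^ p + y ^ p = ε * (ζ - 1) ^ k * z ^ p) :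
    ∀ μ ∈ nthRootsFinset p (1 : O), ζ - 1 ∣ x + μ * y := by
  rw [hζ.pow_add_pow_eq_prod_add_mul x y hodd] at h
  have hdvd : ζ - 1 ∣ ∏ μ ∈ nthRootsFinset p (1 : O), (x + μ * y) := by
    rw [h]
    exact Dvd.dvd.mul_right (Dvd.dvd.mul_left (dvd_pow_self _ hk.ne') _) _
  obtain ⟨μ₀, hμ₀, hd⟩ := (Prime.dvd_finsetProd_iff hπ _).mp hdvd
  intro μ hμ
  have : x + μ * y = (x + μ₀ * y) + (μ - μ₀) * y := by ring
  rw [this]
  exact dvd_add hd (Dvd.dvd.mul_right (pi_dvd_sub hp hζ hμ hμ₀) _)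

theorem exists_sq_dvd (hp : p.Prime) (hζ : IsPrimitiveRoot ζ p) (hπ : Prime (ζ - 1))
    (hcard : Nat.card (O ⧸ Ideal.span {ζ - 1}) = p) {x y : O} (hy : ¬ ζ - 1 ∣ y)
    (hall : ∀ μ ∈ nthRootsFinset p (1 : O), ζ - 1 ∣ x + μ * y) :
    ∃ μ ∈ nthRootsFinset p (1 : O), (ζ - 1) ^ 2 ∣ x + μ * y := by
  classical
  choose! a ha using hall
  have : Finite (O ⧸ Ideal.span {ζ - 1}) := Nat.finite_of_card_ne_zero (by rw [hcard]; exact hp.ne_zero)
  let _ : Fintype (O ⧸ Ideal.span {ζ - 1}) := Fintype.ofFinite _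
  let f : O → O ⧸ Ideal.span {ζ - 1} := fun μ => Ideal.Quotient.mk _ (a μ)
  have hinj : Set.InjOn f (nthRootsFinset p (1 : O) : Set O) := by
    intro μ hμ ν hν hfe
    by_contra hne
    have h1 : ζ - 1 ∣ a μ - a ν := by
      have := (Ideal.Quotient.eq).mp hfe
      exact Ideal.mem_span_singleton.mp this
    obtain ⟨u, hu⟩ := assoc_sub hp hζ hμ hν hne
    have h2 : (ζ - 1) * (a μ - a ν) = (ζ - 1) * (u * y) := by
      rw [mul_sub, ← ha μ hμ, ← ha ν hν, ← mul_assoc, hu]; ring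
    have h3 : a μ - a ν = u * y := mul_left_cancel₀ hπ.ne_zero h2
    rw [h3] at h1
    exact hy ((hπ.dvd_or_dvd h1).resolve_left (fun hd => hπ.not_isUnit (isUnit_of_dvd_unit hd u.isUnit)))
  have hcard' : ((nthRootsFinset p (1 : O)).image f).card = Fintype.card (O ⧸ Ideal.span {ζ - 1}) := by
    rw [Finset.card_image_of_injOn hinj, hζ.card_nthRootsFinset, ← Nat.card_eq_fintype_card, hcard]
  have huniv := Finset.eq_univ_of_card _ hcard'
  have h0 : (0 : O ⧸ Ideal.span {ζ - 1}) ∈ (nthRootsFinset p (1 : O)).image f := by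
    rw [huniv]; exact Finset.mem_univ _
  obtain ⟨μ, hμ, hfμ⟩ := Finset.mem_image.mp h0
  refine ⟨μ, hμ, ?_⟩
  have hd : ζ - 1 ∣ a μ := Ideal.mem_span_singleton.mp (Ideal.Quotient.eq_zero_iff_mem.mp hfμ)
  rw [ha μ hμ, pow_two]
  exact mul_dvd_mul_left _ hd

/-- `1 + ζ` is a unit. -/
theorem isUnit_one_add (hp : p.Prime) (hodd : Odd p) (hζ : IsPrimitiveRoot ζ p) :
    IsUnit (1 + ζ) := by
  have h2 : Nat.Coprime 2 p := by
    rw [Nat.coprime_comm, Nat.Prime.coprime_iff_not_dvd hp]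
    intro h
    have := (Nat.prime_dvd_prime_iff_eq hp Nat.prime_two).mp h
    rw [this] at hodd
    exact absurd hodd (by decide)
  have := hζ.geom_sum_isUnit hp.two_le h2
  simpa [Finset.sum_range_succ] using this

/-- The main descent step, assuming `(ζ - 1) ^ 2 ∣ x + y`. -/
theorem main_step [IsPrincipalIdealRing O] (hp : p.Prime) (hodd : Odd p)
    (hζ : IsPrimitiveRoot ζ p) (hπ : Prime (ζ - 1))
    (hpow : ∀ α : O, ∃ n : ℤ, (p : O) ∣ α ^ p - n)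
    (hassoc : Associated ((ζ - 1) ^ (p - 1)) (p : O))
    (hK : ∀ (u : Oˣ) (n : ℤ), (p : O) ∣ (u : O) - n → ∃ v : Oˣ, u = v ^ p)
    {x y z : O} {ε : Oˣ} {m : ℕ} (hcop : IsCoprime x y) (hy : ¬ ζ - 1 ∣ y) (hz : ¬ ζ - 1 ∣ z)
    (h : x ^ p + y ^ p = ε * (ζ - 1) ^ (p * (m + 1)) * z ^ p)
    (hsq : (ζ - 1) ^ 2 ∣ x + y) :
    1 ≤ m ∧ ∃ (x' y' z' : O) (ε' : Oˣ), IsCoprime x' y' ∧ ¬ ζ - 1 ∣ y' ∧ ¬ ζ - 1 ∣ z' ∧
      x' ^ p + y' ^ p = ε' * (ζ - 1) ^ (p * m) * z' ^ p := by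
  classical
  have hp0 : 0 < p := hp.pos
  have hπ0 : ζ - 1 ≠ 0 := hπ.ne_zero
  have hall := pi_dvd_all hp hodd hζ hπ (k := p * (m + 1)) (Nat.mul_pos hp0 (Nat.succ_pos m)) h
  have h1mem : (1 : O) ∈ nthRootsFinset p (1 : O) := by
    rw [mem_nthRootsFinset hp0]; exact one_pow p
  -- the other factors are exactly divisible by π
  have hex : ∀ μ ∈ (nthRootsFinset p (1 : O)).erase 1,
      ∃ a, x + μ * y = (ζ - 1) * a ∧ ¬ ζ - 1 ∣ a := by
    intro μ hμ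
    obtain ⟨hμ1, hμ⟩ := Finset.mem_erase.mp hμ
    obtain ⟨a, ha⟩ := hall μ hμ
    refine ⟨a, ha, fun hda => ?_⟩
    obtain ⟨u, hu⟩ := assoc_sub hp hζ hμ h1mem hμ1
    have h2 : (ζ - 1) ^ 2 ∣ (ζ - 1) * (u * y) := by
      have e : (ζ - 1) * (u * y) = (x + μ * y) - (x + y) := by
        rw [← mul_assoc, hu]; ring
      rw [e]
      refine dvd_sub ?_ hsq
      rw [ha, pow_two]
      exact mul_dvd_mul_left _ hda
    rw [pow_two] at h2
    have h3 : ζ - 1 ∣ u * y := (mul_dvd_mul_iff_left hπ0).mp h2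
    exact hy ((hπ.dvd_or_dvd h3).resolve_left
      (fun hd => hπ.not_isUnit (isUnit_of_dvd_unit hd u.isUnit)))
  choose! a ha using hex
  set Rts' := (nthRootsFinset p (1 : O)).erase 1 with hRts'
  set A := ∏ μ ∈ Rts', a μ with hA
  have hAnd : ¬ ζ - 1 ∣ A := by
    intro hd
    obtain ⟨μ, hμ, hd'⟩ := (Prime.dvd_finsetProd_iff hπ _).mp hd
    exact (ha μ hμ).2 hd'
  have hcardR : Rts'.card = p - 1 := by
    rw [hRts', Finset.card_erase_of_mem h1mem, hζ.card_nthRootsFinset]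
  -- product formula
  have hprod : (x + y) * ((ζ - 1) ^ (p - 1) * A) = ε * (ζ - 1) ^ (p * (m + 1)) * z ^ p := by
    rw [← h, hζ.pow_add_pow_eq_prod_add_mul x y hodd, ← Finset.mul_prod_erase _ _ h1mem, one_mul]
    congr 1
    rw [hA, ← hcardR, ← Finset.prod_const, ← Finset.prod_mul_distrib]
    exact Finset.prod_congr rfl fun μ hμ => (ha μ hμ).1.symm
  have hexp : p * (m + 1) = (p * m + 1) + (p - 1) := by
    have : 1 ≤ p := hp0
    rw [Nat.mul_succ]; omega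
  have hprod' : (x + y) * A = ε * (ζ - 1) ^ (p * m + 1) * z ^ p := by
    apply mul_left_cancel₀ (pow_ne_zero (p - 1) hπ0)
    rw [hexp, pow_add] at hprod
    linear_combination hprod
  have hdvd : (ζ - 1) ^ (p * m + 1) ∣ x + y := by
    apply hπ.pow_dvd_of_dvd_mul_right _ hAnd
    rw [hprod']
    exact Dvd.dvd.mul_right (Dvd.dvd.mul_left dvd_rfl _) _
  obtain ⟨a₀, ha₀⟩ := hdvd
  have hprod'' : a₀ * A = ε * z ^ p := by
    apply mul_left_cancel₀ (pow_ne_zero (p * m + 1) hπ0)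
    rw [ha₀] at hprod'
    linear_combination hprod'
  have ha₀nd : ¬ ζ - 1 ∣ a₀ := by
    intro hd
    have : ζ - 1 ∣ ε * z ^ p := by rw [← hprod'']; exact Dvd.dvd.mul_right hd _
    rcases hπ.dvd_or_dvd this with h1 | h1
    · exact hπ.not_isUnit (isUnit_of_dvd_unit h1 ε.isUnit)
    · exact hz (hπ.dvd_of_dvd_pow h1)
  have hm : 1 ≤ m := by
    by_contra hm0
    have hm0 : m = 0 := by omega
    rw [hm0, mul_zero, zero_add, pow_one] at ha₀
    rw [ha₀, pow_two] at hsq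
    exact ha₀nd ((mul_dvd_mul_iff_left hπ0).mp hsq)
  refine ⟨hm, ?_⟩
  -- the modified factors
  let b : O → O := fun μ => if μ = 1 then a₀ else a μ
  have hb1 : b 1 = a₀ := if_pos rfl
  have hbne : ∀ μ, μ ≠ 1 → b μ = a μ := fun μ h => if_neg h
  have hbnd : ∀ μ ∈ nthRootsFinset p (1 : O), ¬ ζ - 1 ∣ b μ := by
    intro μ hμ
    by_cases h1 : μ = 1
    · rw [h1, hb1]; exact ha₀nd
    · rw [hbne μ h1]; exact (ha μ (Finset.mem_erase.mpr ⟨h1, hμ⟩)).2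
  have hbdvd : ∀ μ ∈ nthRootsFinset p (1 : O), b μ ∣ x + μ * y := by
    intro μ hμ
    by_cases h1 : μ = 1
    · rw [h1, hb1, one_mul, ha₀]; exact dvd_mul_left _ _
    · rw [hbne μ h1, (ha μ (Finset.mem_erase.mpr ⟨h1, hμ⟩)).1]; exact dvd_mul_left _ _
  have hbprod : ∏ μ ∈ nthRootsFinset p (1 : O), b μ = ε * z ^ p := by
    rw [← Finset.mul_prod_erase _ _ h1mem, hb1, ← hprod'']
    congr 1
    exact Finset.prod_congr rfl fun μ hμ => hbne μ (Finset.mem_erase.mp hμ).1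
  have hbcop : ∀ μ ∈ nthRootsFinset p (1 : O), ∀ ν ∈ nthRootsFinset p (1 : O), μ ≠ ν →
      IsCoprime (b μ) (b ν) := by
    intro μ hμ ν hν hne
    refine isCoprime_of_prime_dvd ?_ ?_
    · rintro ⟨h0, -⟩
      exact hbnd μ hμ (h0 ▸ dvd_zero _)
    · intro q hq hqμ hqν
      have h1 : q ∣ x + μ * y := hqμ.trans (hbdvd μ hμ)
      have h2 : q ∣ x + ν * y := hqν.trans (hbdvd ν hν)
      obtain ⟨u, hu⟩ := assoc_sub hp hζ hμ hν hne
      have h3 : q ∣ (ζ - 1) * (u * y) := by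
        have e : (ζ - 1) * (u * y) = (x + μ * y) - (x + ν * y) := by
          rw [← mul_assoc, hu]; ring
        rw [e]; exact dvd_sub h1 h2
      have h4 : q ∣ (ζ - 1) * (u * x) := by
        have e : (ζ - 1) * (u * x) = μ * (x + ν * y) - ν * (x + μ * y) := by
          rw [← mul_assoc, hu]; ring
        rw [e]; exact dvd_sub (Dvd.dvd.mul_left h2 _) (Dvd.dvd.mul_left h1 _)
      by_cases hqπ : q ∣ ζ - 1
      · obtain ⟨t, ht⟩ := hqπ
        have ht_unit : IsUnit t :=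
          (hπ.irreducible.isUnit_or_isUnit ht).resolve_left hq.not_isUnit
        obtain ⟨tu, rfl⟩ := ht_unit
        have hπq : ζ - 1 ∣ q := ⟨((tu⁻¹ : Oˣ) : O), by rw [ht, mul_assoc, Units.mul_inv, mul_one]⟩
        exact hbnd μ hμ (hπq.trans hqμ)
      · have hqy : q ∣ y := by
          have := (hq.dvd_or_dvd h3).resolve_left hqπ
          exact (hq.dvd_or_dvd this).resolve_left
            (fun hd => hq.not_isUnit (isUnit_of_dvd_unit hd u.isUnit))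
        have hqx : q ∣ x := by
          have := (hq.dvd_or_dvd h4).resolve_left hqπ
          exact (hq.dvd_or_dvd this).resolve_left
            (fun hd => hq.not_isUnit (isUnit_of_dvd_unit hd u.isUnit))
        exact hq.not_isUnit (hcop.isUnit_of_dvd' hqx hqy)
  have hbpow : ∀ μ ∈ nthRootsFinset p (1 : O), ∃ ρ, Associated (ρ ^ p) (b μ) := by
    intro μ hμ
    refine exists_associated_pow_of_associated_pow_mul (c := z)
      (b := ∏ ν ∈ (nthRootsFinset p (1 : O)).erase μ, b ν) ?_ ?_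
    · exact IsCoprime.prod_right fun ν hν =>
        hbcop μ hμ ν (Finset.mem_of_mem_erase hν) (Finset.ne_of_mem_erase hν).symm
    · rw [Finset.mul_prod_erase _ _ hμ, hbprod]
      exact ⟨ε, by ring⟩
  -- the three special roots
  set ζi := ζ ^ (p - 1) with hζi
  have hζmem : ζ ∈ nthRootsFinset p (1 : O) := hζ.mem_nthRootsFinset hp0
  have hζζi : ζ * ζi = 1 := by
    rw [hζi, ← pow_succ', Nat.sub_add_cancel hp0, hζ.pow_eq_one]
  have hζimem : ζi ∈ nthRootsFinset p (1 : O) := by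
    rw [mem_nthRootsFinset hp0, hζi, ← pow_mul, mul_comm, pow_mul, hζ.pow_eq_one, one_pow]
  have hp2 : 2 < p := by
    rcases hp.eq_two_or_odd with h2 | h2
    · rw [h2] at hodd; exact absurd hodd (by decide)
    · have := hp.two_le; omega
  have hζ1 : ζ ≠ 1 := hζ.ne_one hp.one_lt
  have hζi1 : ζi ≠ 1 := by
    intro h; apply hζ1; have := hζζi; rw [h, mul_one] at this; exact this
  have hζζi' : ζ ≠ ζi := by
    intro h
    have := hζ.pow_inj (i := 1) (j := p - 1) (by omega) (by omega) (by rw [pow_one]; exact h)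
    omega
  obtain ⟨ρ₁, η₁, hρ₁⟩ := hbpow ζ hζmem
  obtain ⟨ρ₂, η₂, hρ₂⟩ := hbpow ζi hζimem
  obtain ⟨ρ₀, η₀, hρ₀⟩ := hbpow 1 h1mem
  have hrel : b ζ + ζ * b ζi = (1 + ζ) * (ζ - 1) ^ (p * m) * b 1 := by
    apply mul_left_cancel₀ hπ0
    have e1 := (ha ζ (Finset.mem_erase.mpr ⟨hζ1, hζmem⟩)).1
    have e2 := (ha ζi (Finset.mem_erase.mpr ⟨hζi1, hζimem⟩)).1
    rw [hbne ζ hζ1, hbne ζi hζi1, hb1]
    have e3 : (ζ - 1) * (a ζ + ζ * a ζi) = (1 + ζ) * (x + y) := by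
      linear_combination (-1 : O) * e1 - ζ * e2 + y * hζζi
    rw [e3, ha₀, pow_succ]; ring
  obtain ⟨uζ, huζ⟩ := hζ.isUnit hp0.ne'
  obtain ⟨u1, hu1⟩ := isUnit_one_add hp hodd hζ
  set η : Oˣ := uζ * η₂ * η₁⁻¹ with hη
  set ε' : Oˣ := u1 * η₀ * η₁⁻¹ with hε'
  have hnew : ρ₁ ^ p + η * ρ₂ ^ p = ε' * (ζ - 1) ^ (p * m) * ρ₀ ^ p := by
    have h' : ρ₁ ^ p * η₁ + ζ * (ρ₂ ^ p * η₂) =
        (1 + ζ) * (ζ - 1) ^ (p * m) * (ρ₀ ^ p * η₀) := by
      rw [hρ₁, hρ₂, hρ₀]; exact hrel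
    have hinv : (η₁ : O) * ((η₁⁻¹ : Oˣ) : O) = 1 := Units.mul_inv η₁
    rw [hη, hε']
    push_cast
    rw [huζ, hu1]
    linear_combination ((η₁⁻¹ : Oˣ) : O) * h' - ρ₁ ^ p * hinv
  have hpdvd : (p : O) ∣ (ζ - 1) ^ (p * m) := by
    have h1 : (ζ - 1) ^ (p - 1) ∣ (ζ - 1) ^ (p * m) := pow_dvd_pow _ (by nlinarith)
    exact hassoc.symm.dvd.trans h1
  have hπp : ζ - 1 ∣ (p : O) := (dvd_pow_self _ (by omega : p - 1 ≠ 0)).trans hassoc.dvd
  obtain ⟨n₁, hn₁⟩ := hpow ρ₁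
  obtain ⟨n₂, hn₂⟩ := hpow ρ₂
  have hn₂p : ¬ (p : ℤ) ∣ n₂ := by
    intro hd
    have h1 : (p : O) ∣ (n₂ : O) := by
      obtain ⟨c, rfl⟩ := hd; push_cast; exact dvd_mul_right _ _
    have h2 : (p : O) ∣ ρ₂ ^ p := by
      have := dvd_add hn₂ h1; simpa using this
    have h3 : ζ - 1 ∣ ρ₂ := hπ.dvd_of_dvd_pow (hπp.trans h2)
    apply hbnd ζi hζimem
    rw [← hρ₂]
    exact Dvd.dvd.mul_right (dvd_pow h3 hp.ne_zero) _
  have hcopZ : IsCoprime (p : ℤ) n₂ :=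
    (Nat.prime_iff_prime_int.mp hp).coprime_iff_not_dvd.mpr hn₂p
  obtain ⟨s, t, hst⟩ := hcopZ
  have hsum : (p : O) ∣ (n₁ : O) + η * n₂ := by
    have e : (n₁ : O) + η * n₂ = (ρ₁ ^ p + η * ρ₂ ^ p) - (ρ₁ ^ p - n₁) - η * (ρ₂ ^ p - n₂) := by
      ring
    rw [e, hnew]
    refine dvd_sub (dvd_sub ?_ hn₁) (Dvd.dvd.mul_left hn₂ _)
    exact Dvd.dvd.mul_right (Dvd.dvd.mul_left hpdvd _) _
  have hηint : (p : O) ∣ (η : O) - ((-(t * n₁) : ℤ) : O) := by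
    have hst' : (s : O) * p + t * n₂ = 1 := by exact_mod_cast congrArg (Int.cast : ℤ → O) hst
    have e : (η : O) - ((-(t * n₁) : ℤ) : O) = η * s * p + t * ((n₁ : O) + η * n₂) := by
      push_cast
      linear_combination (-(η : O)) * hst'
    rw [e]
    exact dvd_add (dvd_mul_left _ _) (Dvd.dvd.mul_left hsum _)
  obtain ⟨v, hv⟩ := hK η _ hηint
  refine ⟨ρ₁, v * ρ₂, ρ₀, ε', ?_, ?_, ?_, ?_⟩
  · have hc : IsCoprime (b ζ) (b ζi) := hbcop ζ hζmem ζi hζimem hζζi'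
    rw [← hρ₁, ← hρ₂] at hc
    have hc' : IsCoprime (ρ₁ ^ p) (ρ₂ ^ p) :=
      (isCoprime_mul_unit_right_left η₁.isUnit _ _).mp
        ((isCoprime_mul_unit_right_right η₂.isUnit _ _).mp hc)
    have hc'' : IsCoprime ρ₁ ρ₂ := (IsCoprime.pow_iff hp0 hp0).mp hc'
    exact (isCoprime_mul_unit_left_right v.isUnit _ _).mpr hc''
  · intro hd
    have h3 : ζ - 1 ∣ ρ₂ := (hπ.dvd_or_dvd hd).resolve_left
      (fun hd' => hπ.not_isUnit (isUnit_of_dvd_unit hd' v.isUnit))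
    apply hbnd ζi hζimem
    rw [← hρ₂]
    exact Dvd.dvd.mul_right (dvd_pow h3 hp.ne_zero) _
  · intro hd
    apply hbnd 1 h1mem
    rw [← hρ₀]
    exact Dvd.dvd.mul_right (dvd_pow hd hp.ne_zero) _
  · rw [mul_pow, ← Units.val_pow_eq_pow_val, ← hv]
    exact hnew

/-- The descent step. -/
theorem descent [IsPrincipalIdealRing O] (hp : p.Prime) (hodd : Odd p)
    (hζ : IsPrimitiveRoot ζ p) (hπ : Prime (ζ - 1))
    (hcard : Nat.card (O ⧸ Ideal.span {ζ - 1}) = p)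
    (hpow : ∀ α : O, ∃ n : ℤ, (p : O) ∣ α ^ p - n)
    (hassoc : Associated ((ζ - 1) ^ (p - 1)) (p : O))
    (hK : ∀ (u : Oˣ) (n : ℤ), (p : O) ∣ (u : O) - n → ∃ v : Oˣ, u = v ^ p)
    {x y z : O} {ε : Oˣ} {m : ℕ} (hcop : IsCoprime x y) (hy : ¬ ζ - 1 ∣ y) (hz : ¬ ζ - 1 ∣ z)
    (h : x ^ p + y ^ p = ε * (ζ - 1) ^ (p * (m + 1)) * z ^ p) :
    1 ≤ m ∧ ∃ (x' y' z' : O) (ε' : Oˣ), IsCoprime x' y' ∧ ¬ ζ - 1 ∣ y' ∧ ¬ ζ - 1 ∣ z' ∧
      x' ^ p + y' ^ p = ε' * (ζ - 1) ^ (p * m) * z' ^ p := by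
  have hp0 : 0 < p := hp.pos
  have hall := pi_dvd_all hp hodd hζ hπ (k := p * (m + 1)) (Nat.mul_pos hp0 (Nat.succ_pos m)) h
  obtain ⟨μ, hμ, hsq⟩ := exists_sq_dvd hp hζ hπ hcard hy hall
  have hμp : μ ^ p = 1 := (mem_nthRootsFinset hp0 (1 : O)).mp hμ
  have hμu : IsUnit μ := IsUnit.of_pow_eq_one hμp hp0.ne'
  refine main_step hp hodd hζ hπ hpow hassoc hK (x := x) (y := μ * y) (z := z) (ε := ε)
    ((isCoprime_mul_unit_left_right hμu _ _).mpr hcop) ?_ hz ?_ hsq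
  · intro hd
    exact hy ((hπ.dvd_or_dvd hd).resolve_left
      (fun hd' => hπ.not_isUnit (isUnit_of_dvd_unit hd' hμu)))
  · rw [mul_pow, hμp, one_mul]; exact h

/-- No solutions to the generalized case II equation. -/
theorem no_solution [IsPrincipalIdealRing O] (hp : p.Prime) (hodd : Odd p)
    (hζ : IsPrimitiveRoot ζ p) (hπ : Prime (ζ - 1))
    (hcard : Nat.card (O ⧸ Ideal.span {ζ - 1}) = p)
    (hpow : ∀ α : O, ∃ n : ℤ, (p : O) ∣ α ^ p - n)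
    (hassoc : Associated ((ζ - 1) ^ (p - 1)) (p : O))
    (hK : ∀ (u : Oˣ) (n : ℤ), (p : O) ∣ (u : O) - n → ∃ v : Oˣ, u = v ^ p) (m : ℕ) :
    ∀ (x y z : O) (ε : Oˣ), IsCoprime x y → ¬ ζ - 1 ∣ y → ¬ ζ - 1 ∣ z →
      x ^ p + y ^ p = ε * (ζ - 1) ^ (p * (m + 1)) * z ^ p → False := by
  induction m with
  | zero =>
    intro x y z ε hcop hy hz h
    have := (descent hp hodd hζ hπ hcard hpow hassoc hK hcop hy hz h).1
    omega
  | succ m ih =>
    intro x y z ε hcop hy hz h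
    obtain ⟨-, x', y', z', ε', hcop', hy', hz', h'⟩ :=
      descent hp hodd hζ hπ hcard hpow hassoc hK hcop hy hz h
    exact ih x' y' z' ε' hcop' hy' hz' h'

end abstract

section concrete

open NumberField

variable {p : ℕ} [hp : Fact p.Prime] {K : Type*} [Field K] [NumberField K]
  [IsCyclotomicExtension {p} ℚ K]

/-- `p`-th powers of cyclotomic integers are congruent to rational integers mod `p`. -/
theorem pow_congr_int {ζ : K} (hζ : IsPrimitiveRoot ζ p) (α : 𝓞 K) :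
    ∃ n : ℤ, (p : 𝓞 K) ∣ α ^ p - n := by
  have htop := IsCyclotomicExtension.Rat.adjoin_singleton_eq_top hζ
  have hα : α ∈ Algebra.adjoin ℤ {hζ.toInteger} := by rw [htop]; trivial
  induction hα using Algebra.adjoin_induction with
  | mem x hx =>
    rw [Set.mem_singleton_iff] at hx; subst hx
    exact ⟨1, by rw [hζ.toInteger_isPrimitiveRoot.pow_eq_one]; simp⟩
  | algebraMap r => exact ⟨r ^ p, by simp⟩
  | add x y hx hy ihx ihy =>
    obtain ⟨n₁, h₁⟩ := ihx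
    obtain ⟨n₂, h₂⟩ := ihy
    obtain ⟨r, hr⟩ := exists_add_pow_prime_eq hp.out x y
    refine ⟨n₁ + n₂, ?_⟩
    rw [hr]; push_cast
    have e : x ^ p + y ^ p + ↑p * x * y * r - (↑n₁ + ↑n₂) =
        (x ^ p - n₁) + (y ^ p - n₂) + p * (x * y * r) := by ring
    rw [e]
    exact dvd_add (dvd_add h₁ h₂) (dvd_mul_right _ _)
  | mul x y hx hy ihx ihy =>
    obtain ⟨n₁, h₁⟩ := ihx
    obtain ⟨n₂, h₂⟩ := ihy
    refine ⟨n₁ * n₂, ?_⟩
    have e : (x * y) ^ p - ((n₁ * n₂ : ℤ) : 𝓞 K) =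
        (x ^ p - n₁) * y ^ p + n₁ * (y ^ p - n₂) := by push_cast; ring
    rw [e]
    exact dvd_add (Dvd.dvd.mul_right h₁ _) (Dvd.dvd.mul_left h₂ _)

end concrete

end Fermat.Agent.Kummer.CaseII

namespace Fermat.Agent.Kummer

open NumberField

/-- Fermat's Last Theorem, case II, for a cyclotomic ring of integers that is a PID and
satisfies Kummer's lemma. -/
theorem caseII {p : ℕ} [Fact p.Prime] (hp5 : 5 ≤ p) {K : Type*} [Field K] [NumberField K]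
    [IsCyclotomicExtension {p} ℚ K] [IsPrincipalIdealRing (𝓞 K)]
    (hK : ∀ (u : (𝓞 K)ˣ) (n : ℤ), (p : 𝓞 K) ∣ (u : 𝓞 K) - n → ∃ v : (𝓞 K)ˣ, u = v ^ p)
    {a b c : ℤ} (hgcd : IsCoprime a b) (hc0 : c ≠ 0) (hpc : (p : ℤ) ∣ c)
    (h : a ^ p + b ^ p = c ^ p) : False := by
  have hp : p.Prime := Fact.out
  have hp2 : p ≠ 2 := by omega
  have hodd : Odd p := hp.odd_of_ne_two hp2
  have hpZ : Prime (p : ℤ) := Nat.prime_iff_prime_int.mp hp
  have hζ := IsCyclotomicExtension.zeta_spec p ℚ K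
  set ζ := hζ.toInteger with hζdef
  have hζ' : IsPrimitiveRoot ζ p := hζ.toInteger_isPrimitiveRoot
  have hπ : Prime (ζ - 1) := hζ.zeta_sub_one_prime'
  have hcard : Nat.card (𝓞 K ⧸ Ideal.span {ζ - 1}) = p := by
    rw [hζ.card_quotient_toInteger_sub_one, hζ.norm_toInteger_sub_one_of_prime_ne_two' hp2]
    simp
  have hassoc : Associated ((ζ - 1) ^ (p - 1)) (p : 𝓞 K) :=
    IsCyclotomicExtension.Rat.associated_zeta_sub_one_pow_prime p hζ
  have hint : ∀ n : ℤ, ζ - 1 ∣ (n : 𝓞 K) ↔ (p : ℤ) ∣ n := fun n =>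
    IsCyclotomicExtension.Rat.zeta_sub_one_dvd_intCast_iff' p hζ
  -- write c = p ^ k * c₀
  have hfin : FiniteMultiplicity (p : ℤ) c :=
    Int.finiteMultiplicity_iff.mpr ⟨by simpa using hp.ne_one, hc0⟩
  obtain ⟨c₀, hc, hc₀⟩ := hfin.exists_eq_pow_mul_and_not_dvd
  set k := multiplicity (p : ℤ) c with hk
  have hk1 : 1 ≤ k := by
    by_contra hk0
    have hk0 : k = 0 := by omega
    rw [hk0, pow_zero, one_mul] at hc
    rw [hc] at hpc
    exact hc₀ hpc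
  -- p ∤ b
  have hpb : ¬ (p : ℤ) ∣ b := by
    intro hb
    have hcp : (p : ℤ) ∣ c ^ p := dvd_pow hpc hp.ne_zero
    have hbp : (p : ℤ) ∣ b ^ p := dvd_pow hb hp.ne_zero
    have hap : (p : ℤ) ∣ a ^ p := by
      have : a ^ p = c ^ p - b ^ p := by rw [← h]; ring
      rw [this]; exact dvd_sub hcp hbp
    have ha : (p : ℤ) ∣ a := hpZ.dvd_of_dvd_pow hap
    exact hpZ.not_isUnit (hgcd.isUnit_of_dvd' ha hb)
  obtain ⟨u, hu⟩ := hassoc
  have hm : (p - 1) * k = ((p - 1) * k - 1) + 1 := by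
    have : 1 ≤ (p - 1) * k := Nat.one_le_iff_ne_zero.mpr (Nat.mul_ne_zero (by omega) (by omega))
    omega
  refine CaseII.no_solution hp hodd hζ' hπ hcard (CaseII.pow_congr_int hζ) ⟨u, hu⟩ hK
    ((p - 1) * k - 1) (a : 𝓞 K) (b : 𝓞 K) (c₀ : 𝓞 K) (u ^ (k * p))
    (hgcd.intCast) ?_ ?_ ?_
  · rw [hint]; exact hpb
  · rw [hint]; exact hc₀
  · rw [← hm]
    have h1 : ((a : 𝓞 K)) ^ p + (b : 𝓞 K) ^ p = (c : 𝓞 K) ^ p := by
      exact_mod_cast congrArg (Int.cast : ℤ → 𝓞 K) h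
    rw [h1, hc]
    push_cast
    rw [← hu]
    ring

end Fermat.Agent.Kummer
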