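import Mathlib
import Fermat.Prelude.Def_FLTPrelim_FreyPackage
import Fermat.Agent.Kummer.CaseI
import Fermat.Agent.Kummer.CaseII

set_option autoImplicit false

open NumberField

namespace Fermat.Agent.Kummer


namespace Assembly

/-- From `a ^ p + b ^ p = c ^ p` with `a, b` coprime, `c` and `b` are coprime. -/
theorem isCoprime_right_of_eq {p : ℕ} (hp0 : p ≠ 0) {a b c : ℤ} (hgcd : IsCoprime a b)
    (h : a ^ p + b ^ p = c ^ p) : IsCoprime c b := by
  have h1 : IsCoprime (a ^ p) b := hgcd.pow_left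
  have h2 : IsCoprime (c ^ p) b := by
    rw [← h]
    obtain ⟨k, hk⟩ : b ∣ b ^ p := dvd_pow_self b hp0
    rw [hk]
    exact h1.add_mul_left_left k
  exact (IsCoprime.pow_left_iff (Nat.pos_of_ne_zero hp0)).mp h2

/-- From `a ^ p + b ^ p = c ^ p` with `a, b` coprime, `c` and `a` are coprime. -/
theorem isCoprime_left_of_eq {p : ℕ} (hp0 : p ≠ 0) {a b c : ℤ} (hgcd : IsCoprime a b)
    (h : a ^ p + b ^ p = c ^ p) : IsCoprime c a :=
  isCoprime_right_of_eq hp0 hgcd.symm (by rw [add_comm]; exact h)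

/-- Kummer's criterion in the class number one case: if the `p`-th cyclotomic integers form a
principal ideal domain and every unit congruent to an integer modulo `p` is a `p`-th power, then
Fermat's equation with exponent `p` has no solution in nonzero coprime integers. -/
theorem flt_of_pid_of_kummer {p : ℕ} (hpp : p.Prime) (hp5 : 5 ≤ p)
    (K : Type*) [Field K] [NumberField K] [IsCyclotomicExtension {p} ℚ K]
    (hpid : IsPrincipalIdealRing (𝓞 K))
    (hK : ∀ (u : (𝓞 K)ˣ) (n : ℤ), (p : 𝓞 K) ∣ (u : 𝓞 K) - n → ∃ v : (𝓞 K)ˣ, u = v ^ p)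
    (a b c : ℤ) (ha : a ≠ 0) (hb : b ≠ 0) (hc : c ≠ 0) (hgcd : IsCoprime a b) :
    a ^ p + b ^ p ≠ c ^ p := by
  intro h
  have : Fact p.Prime := ⟨hpp⟩
  have hodd : Odd p := hpp.odd_of_ne_two (by omega)
  have hp0 : p ≠ 0 := hpp.ne_zero
  by_cases hpabc : (p : ℤ) ∣ a * b * c
  · have hprime : Prime (p : ℤ) := Nat.prime_iff_prime_int.mp hpp
    rcases (hprime.dvd_or_dvd hpabc) with hab | hpc
    · rcases (hprime.dvd_or_dvd hab) with hpa | hpb
      · have h' : c ^ p + (-b) ^ p = a ^ p := by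
          rw [hodd.neg_pow, ← h]; ring
        exact caseII (K := K) hp5 hK (isCoprime_right_of_eq hp0 hgcd h).neg_right ha hpa h'
      · have h' : c ^ p + (-a) ^ p = b ^ p := by
          rw [hodd.neg_pow, ← h]; ring
        exact caseII (K := K) hp5 hK (isCoprime_left_of_eq hp0 hgcd h).neg_right hb hpb h'
    · exact caseII (K := K) hp5 hK hgcd hc hpc h
  · exact caseI (K := K) hp5 hgcd hpabc h

/-- A Frey package has coprime `a` and `b`. -/
theorem isCoprime_of_freyPackage (P : FreyPackage) : IsCoprime P.a P.b := by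
  have h := P.hgcdab
  rw [Int.isCoprime_iff_gcd_eq_one]
  have h2 : ((Int.gcd P.a P.b : ℕ) : ℤ) = 1 := by
    rw [Int.coe_gcd]; exact h
  exact_mod_cast h2

/-- There is no Frey package whose exponent `q` has class number one and satisfies Kummer's
lemma. -/
theorem no_freyPackage_of_pid_of_kummer (P : FreyPackage) (q : ℕ) (hq : P.p = q)
    (K : Type*) [Field K] [NumberField K] [IsCyclotomicExtension {q} ℚ K]
    (hpid : IsPrincipalIdealRing (𝓞 K))
    (hK : ∀ (u : (𝓞 K)ˣ) (n : ℤ), (q : 𝓞 K) ∣ (u : 𝓞 K) - n → ∃ v : (𝓞 K)ˣ, u = v ^ q) :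
    False := by
  have hpp := P.pp
  have h5 := P.hp5
  have hF := P.hFLT
  rw [hq] at hpp h5 hF
  exact flt_of_pid_of_kummer hpp h5 K hpid hK P.a P.b P.c
    P.ha0 P.hb0 P.hc0 (isCoprime_of_freyPackage P) hF

end Assembly

end Fermat.Agent.Kummer
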