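import Mathlib

set_option autoImplicit false
set_option linter.unusedSectionVars false

open NumberField Polynomial

namespace Fermat.Agent.Kummer.DLog

variable {p : ℕ} [hp : Fact p.Prime] {K : Type*} [Field K] [NumberField K]
  [hK : IsCyclotomicExtension {p} ℚ K] {ζ : K} (hζ : IsPrimitiveRoot ζ p)

/-- The quotient ring `𝓞 K / p`. -/
abbrev Rp (p : ℕ) (K : Type*) [Field K] : Type _ := 𝓞 K ⧸ Ideal.span {(p : 𝓞 K)}

omit hK in
lemma minpoly_toInteger : minpoly ℤ hζ.toInteger = cyclotomic p ℤ := by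
  have h1 : minpoly ℤ (hζ.toInteger : K) = minpoly ℤ hζ.toInteger :=
    minpoly.algebraMap_eq RingOfIntegers.coe_injective hζ.toInteger
  rw [← h1]
  exact (cyclotomic_eq_minpoly hζ hp.out.pos).symm

omit hK in
lemma cyclo_aeval_zero : aeval hζ.toInteger (cyclotomic p ℤ) = 0 := by
  rw [← minpoly_toInteger hζ]
  exact minpoly.aeval ℤ _

omit hK in
lemma deriv_cyclo_mul :
    aeval hζ.toInteger (derivative (cyclotomic p ℤ)) * (hζ.toInteger * (hζ.toInteger - 1))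
      = (p : 𝓞 K) := by
  have h := congrArg (fun f => aeval hζ.toInteger (derivative f))
    (cyclotomic_prime_mul_X_sub_one ℤ p)
  simp only [derivative_mul, derivative_X, derivative_one, sub_zero, mul_one,
    derivative_X_pow, map_add, map_mul, map_sub, aeval_X, map_one, map_pow, map_natCast,
    cyclo_aeval_zero hζ, add_zero] at h
  have hpow : hζ.toInteger ^ p = 1 := hζ.toInteger_isPrimitiveRoot.pow_eq_one
  have hp1 : p - 1 + 1 = p := Nat.sub_add_cancel hp.out.one_le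
  calc aeval hζ.toInteger (derivative (cyclotomic p ℤ)) * (hζ.toInteger * (hζ.toInteger - 1))
      = (aeval hζ.toInteger (derivative (cyclotomic p ℤ)) * (hζ.toInteger - 1)) * hζ.toInteger := by
        ring
    _ = (p : 𝓞 K) * hζ.toInteger ^ (p - 1) * hζ.toInteger := by rw [h]
    _ = (p : 𝓞 K) * hζ.toInteger ^ (p - 1 + 1) := by ring
    _ = (p : 𝓞 K) := by rw [hp1, hpow, mul_one]


/-- The image of `ζ` in the dual numbers over `𝓞 K / p`. -/
noncomputable def yelt : DualNumber (Rp p K) :=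
  TrivSqZeroExt.inl (Ideal.Quotient.mk _ hζ.toInteger) +
    TrivSqZeroExt.inr (Ideal.Quotient.mk _ (hζ.toInteger * (hζ.toInteger - 1)))

lemma aeval_yelt : aeval (yelt hζ) (cyclotomic p ℤ) = 0 := by
  let ι : 𝓞 K →ₐ[ℤ] DualNumber (Rp p K) :=
    ((TrivSqZeroExt.inlHom (Rp p K) (Rp p K)).comp
      (Ideal.Quotient.mk (Ideal.span {(p : 𝓞 K)}))).toIntAlgHom
  have hx : (TrivSqZeroExt.inl (Ideal.Quotient.mk _ hζ.toInteger) : DualNumber (Rp p K))
      = ι hζ.toInteger := rfl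
  have he : (TrivSqZeroExt.inr (Ideal.Quotient.mk (Ideal.span {(p : 𝓞 K)})
      (hζ.toInteger * (hζ.toInteger - 1))) : DualNumber (Rp p K)) ^ 2 = 0 := by
    rw [pow_two, TrivSqZeroExt.inr_mul_inr]
  unfold yelt
  rw [aeval_add_of_sq_eq_zero _ _ _ he, hx, aeval_algHom_apply, aeval_algHom_apply,
    cyclo_aeval_zero hζ, map_zero, zero_add]
  have h2 : ι (aeval hζ.toInteger (derivative (cyclotomic p ℤ))) =
      TrivSqZeroExt.inl (Ideal.Quotient.mk (Ideal.span {(p : 𝓞 K)})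
        (aeval hζ.toInteger (derivative (cyclotomic p ℤ)))) := rfl
  rw [h2, TrivSqZeroExt.inl_mul_inr, smul_eq_mul, ← map_mul, deriv_cyclo_mul hζ]
  have : (Ideal.Quotient.mk (Ideal.span {(p : 𝓞 K)})) (p : 𝓞 K) = 0 :=
    Ideal.Quotient.eq_zero_iff_mem.mpr (Ideal.mem_span_singleton_self _)
  rw [this, TrivSqZeroExt.inr_zero]

/-- The ring homomorphism `𝓞 K → (𝓞 K / p)[ε]` encoding the derivation. -/
noncomputable def phi : 𝓞 K →ₐ[ℤ] DualNumber (Rp p K) :=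
  hζ.integralPowerBasis.lift (yelt hζ) (by
    rw [hζ.integralPowerBasis_gen, minpoly_toInteger hζ]; exact aeval_yelt hζ)

lemma phi_zeta : phi hζ hζ.toInteger = yelt hζ := by
  have h := hζ.integralPowerBasis.lift_gen (yelt hζ) (by
    rw [hζ.integralPowerBasis_gen, minpoly_toInteger hζ]; exact aeval_yelt hζ)
  conv_lhs => rw [← hζ.integralPowerBasis_gen]
  exact h

lemma fst_phi (x : 𝓞 K) : (phi hζ x).fst = Ideal.Quotient.mk (Ideal.span {(p : 𝓞 K)}) x := by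
  let f1 : 𝓞 K →ₐ[ℤ] Rp p K := (TrivSqZeroExt.fstHom ℤ (Rp p K) (Rp p K)).comp (phi hζ)
  let f2 : 𝓞 K →ₐ[ℤ] Rp p K := (Ideal.Quotient.mk (Ideal.span {(p : 𝓞 K)})).toIntAlgHom
  have : f1 = f2 := by
    apply hζ.integralPowerBasis.algHom_ext
    rw [hζ.integralPowerBasis_gen]
    show (phi hζ hζ.toInteger).fst = Ideal.Quotient.mk (Ideal.span {(p : 𝓞 K)}) hζ.toInteger
    rw [phi_zeta]
    simp [yelt]
  exact congrArg (fun f => f x) this

/-- The derivation `D = (ζ - 1) ζ d/dζ : 𝓞 K → 𝓞 K / p`. -/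
noncomputable def D (x : 𝓞 K) : Rp p K := (phi hζ x).snd

lemma D_add (x y : 𝓞 K) : D hζ (x + y) = D hζ x + D hζ y := by
  simp [D]

lemma D_mul (x y : 𝓞 K) : D hζ (x * y) =
    Ideal.Quotient.mk (Ideal.span {(p : 𝓞 K)}) x * D hζ y +
      Ideal.Quotient.mk (Ideal.span {(p : 𝓞 K)}) y * D hζ x := by
  simp only [D, map_mul, TrivSqZeroExt.snd_mul, fst_phi, smul_eq_mul, MulOpposite.smul_eq_mul_unop,
    MulOpposite.unop_op]
  ring

lemma D_intCast (n : ℤ) : D hζ (n : 𝓞 K) = 0 := by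
  simp [D]

lemma D_one : D hζ (1 : 𝓞 K) = 0 := by
  simp [D]

lemma D_zeta : D hζ hζ.toInteger =
    Ideal.Quotient.mk (Ideal.span {(p : 𝓞 K)}) (hζ.toInteger * (hζ.toInteger - 1)) := by
  simp [D, phi_zeta, yelt]

lemma D_zeta_pow (n : ℕ) : D hζ (hζ.toInteger ^ n) =
    Ideal.Quotient.mk (Ideal.span {(p : 𝓞 K)}) ((n : 𝓞 K) * hζ.toInteger ^ n * (hζ.toInteger - 1)) := by
  induction n with
  | zero => simp [D_one]
  | succ n ih =>
    rw [pow_succ, D_mul, ih, D_zeta, ← map_mul, ← map_mul, ← map_add]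
    congr 1
    push_cast
    ring

lemma D_eq_zero_of_dvd (x : 𝓞 K) (n : ℤ) (h : (p : 𝓞 K) ∣ x - n) : D hζ x = 0 := by
  obtain ⟨w, hw⟩ := h
  have hx : x = n + p * w := by rw [← hw]; ring
  have hp0 : Ideal.Quotient.mk (Ideal.span {(p : 𝓞 K)}) (p : 𝓞 K) = 0 :=
    Ideal.Quotient.eq_zero_iff_mem.mpr (Ideal.mem_span_singleton_self _)
  have hDp : D hζ (p : 𝓞 K) = 0 := by
    have := D_intCast hζ (p : ℤ)
    simpa using this
  rw [hx, D_add, D_intCast, D_mul, hp0, hDp]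
  simp


lemma mk_unit_mul_inv (u : (𝓞 K)ˣ) :
    Ideal.Quotient.mk (Ideal.span {(p : 𝓞 K)}) (u : 𝓞 K) *
      Ideal.Quotient.mk (Ideal.span {(p : 𝓞 K)}) ((u⁻¹ : (𝓞 K)ˣ) : 𝓞 K) = 1 := by
  rw [← map_mul, ← Units.val_mul, mul_inv_cancel, Units.val_one, map_one]

/-- The logarithmic derivative of a unit, an element of `𝓞 K / p`. -/
noncomputable def dlog (u : (𝓞 K)ˣ) : Rp p K :=
  D hζ (u : 𝓞 K) * Ideal.Quotient.mk (Ideal.span {(p : 𝓞 K)}) ((u⁻¹ : (𝓞 K)ˣ) : 𝓞 K)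

lemma dlog_mul (u v : (𝓞 K)ˣ) : dlog hζ (u * v) = dlog hζ u + dlog hζ v := by
  have hu := mk_unit_mul_inv (p := p) u
  have hv := mk_unit_mul_inv (p := p) v
  simp only [dlog, Units.val_mul, mul_inv, D_mul, map_mul]
  linear_combination (D hζ (v : 𝓞 K) * Ideal.Quotient.mk (Ideal.span {(p : 𝓞 K)})
      ((v⁻¹ : (𝓞 K)ˣ) : 𝓞 K)) * hu +
    (D hζ (u : 𝓞 K) * Ideal.Quotient.mk (Ideal.span {(p : 𝓞 K)})
      ((u⁻¹ : (𝓞 K)ˣ) : 𝓞 K)) * hv

/-- `dlog` as a monoid homomorphism. -/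
noncomputable def dlogHom : (𝓞 K)ˣ →* Multiplicative (Rp p K) :=
  MonoidHom.mk' (fun u => Multiplicative.ofAdd (dlog hζ u)) (fun u v => by
    rw [dlog_mul, ofAdd_add])

lemma dlog_zpow (u : (𝓞 K)ˣ) (k : ℤ) : dlog hζ (u ^ k) = k • dlog hζ u := by
  have h := map_zpow (dlogHom hζ) u k
  exact congrArg Multiplicative.toAdd h

lemma dlog_prod {ι : Type*} (s : Finset ι) (f : ι → (𝓞 K)ˣ) :
    dlog hζ (∏ i ∈ s, f i) = ∑ i ∈ s, dlog hζ (f i) := by
  have h := map_prod (dlogHom hζ) f s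
  have h2 := congrArg Multiplicative.toAdd h
  rw [toAdd_prod] at h2
  exact h2

lemma dlog_eq_zero_of_dvd (u : (𝓞 K)ˣ) (n : ℤ) (h : (p : 𝓞 K) ∣ (u : 𝓞 K) - n) :
    dlog hζ u = 0 := by
  rw [dlog, D_eq_zero_of_dvd hζ _ n h, zero_mul]

lemma p_smul_Rp (x : Rp p K) : p • x = 0 := by
  have hp0 : Ideal.Quotient.mk (Ideal.span {(p : 𝓞 K)}) (p : 𝓞 K) = 0 :=
    Ideal.Quotient.eq_zero_iff_mem.mpr (Ideal.mem_span_singleton_self _)
  rw [nsmul_eq_mul]
  have : ((p : ℕ) : Rp p K) = Ideal.Quotient.mk (Ideal.span {(p : 𝓞 K)}) (p : 𝓞 K) := by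
    simp
  rw [this, hp0, zero_mul]

omit hp hK in
lemma exists_generators : ∃ g₀ : (𝓞 K)ˣ, ∀ u : (𝓞 K)ˣ, ∃ (k : ℤ) (e : Fin (Units.rank K) → ℤ),
    u = g₀ ^ k * ∏ i, (Units.fundSystem K i) ^ (e i) := by
  obtain ⟨g, hg⟩ := IsCyclic.exists_generator (α := Units.torsion K)
  refine ⟨(g : (𝓞 K)ˣ), fun u => ?_⟩
  obtain ⟨ζe, hζe, -⟩ := Units.exist_unique_eq_mul_prod K u
  obtain ⟨k, hk⟩ := Subgroup.mem_zpowers_iff.mp (hg ζe.1)
  refine ⟨k, ζe.2, ?_⟩
  rw [hζe, ← hk]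
  simp

lemma injective_of_li {k : Type*} [Field k] {n : ℕ} {R : Type*} [AddCommGroup R] [Module k R]
    (M : (Fin n → k) →ₗ[k] R) (c : Fin n → (Fin n → k))
    (h : LinearIndependent k (fun a => M (c a))) : Function.Injective M := by
  have hc : LinearIndependent k c := LinearIndependent.of_comp M h
  have hspan : Submodule.span k (Set.range c) = ⊤ :=
    hc.span_eq_top_of_card_eq_finrank' (by simp)
  rw [← LinearMap.ker_eq_bot, Submodule.eq_bot_iff]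
  intro x hx
  have hx' : x ∈ Submodule.span k (Set.range c) := by rw [hspan]; trivial
  obtain ⟨w, rfl⟩ := (Submodule.mem_span_range_iff_exists_fun k).mp hx'
  rw [LinearMap.mem_ker, map_sum] at hx
  simp only [map_smul] at hx
  have hw := Fintype.linearIndependent_iff.mp h w hx
  simp [hw]


omit hp hK in
theorem kummer_abstract {E : Type*} [CommGroup E] {R : Type*} [AddCommGroup R] (q : ℕ)
    [Fact q.Prime] [Module (ZMod q) R] (L : E →* Multiplicative R) {n : ℕ} (G : Fin n → E)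
    (hG : ∀ u : E, ∃ d : Fin n → ℤ, u = ∏ j, G j ^ d j) (ε : Fin n → E)
    (hind : ∀ c : Fin n → ℤ, (∑ a, c a • Multiplicative.toAdd (L (ε a))) = 0 →
      ∀ a, (q : ℤ) ∣ c a)
    (u : E) (hu : L u = 1) : ∃ v : E, u = v ^ q := by
  let M : (Fin n → ZMod q) →ₗ[ZMod q] R :=
    Fintype.linearCombination (ZMod q) (fun j => Multiplicative.toAdd (L (G j)))
  have hM : ∀ d : Fin n → ℤ,
      M (fun j => (d j : ZMod q)) = Multiplicative.toAdd (L (∏ j, G j ^ d j)) := by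
    intro d
    rw [map_prod, toAdd_prod, Fintype.linearCombination_apply]
    refine Finset.sum_congr rfl (fun j _ => ?_)
    rw [map_zpow, toAdd_zpow, Int.cast_smul_eq_zsmul]
  choose C hC using fun a => hG (ε a)
  have hli : LinearIndependent (ZMod q) (fun a => M (fun j => ((C a j : ℤ) : ZMod q))) := by
    rw [Fintype.linearIndependent_iff]
    intro g hg a
    have h1 : ∑ a, ((g a).val : ℤ) • Multiplicative.toAdd (L (ε a)) = 0 := by
      rw [← hg]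
      refine Finset.sum_congr rfl (fun a _ => ?_)
      rw [hM, ← hC a, ← Int.cast_smul_eq_zsmul (ZMod q)]
      simp
    have h2 := hind (fun a => ((g a).val : ℤ)) h1 a
    have h3 : (((g a).val : ℤ) : ZMod q) = 0 := (ZMod.intCast_zmod_eq_zero_iff_dvd _ q).mpr h2
    simpa using h3
  have hinj : Function.Injective M := injective_of_li M _ hli
  obtain ⟨d, hd⟩ := hG u
  have hMd : M (fun j => (d j : ZMod q)) = 0 := by rw [hM, ← hd, hu]; rfl
  have hd0 : (fun j => (d j : ZMod q)) = 0 := hinj (by rw [hMd, map_zero])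
  have hdvd : ∀ j, (q : ℤ) ∣ d j := fun j =>
    (ZMod.intCast_zmod_eq_zero_iff_dvd _ q).mp (congrFun hd0 j)
  choose d' hd' using hdvd
  refine ⟨∏ j, G j ^ d' j, ?_⟩
  rw [hd, ← Finset.prod_pow]
  refine Finset.prod_congr rfl (fun j _ => ?_)
  rw [hd' j, ← zpow_natCast, ← zpow_mul, mul_comm]

theorem kummer_of_units (n : ℕ) (hn : Units.rank K + 1 = n) (ε : Fin n → (𝓞 K)ˣ)
    (hind : ∀ c : Fin n → ℤ, (∑ a, c a • dlog hζ (ε a)) = 0 → ∀ a, (p : ℤ) ∣ c a)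
    (u : (𝓞 K)ˣ) (m : ℤ) (hu : (p : 𝓞 K) ∣ (u : 𝓞 K) - m) : ∃ v : (𝓞 K)ˣ, u = v ^ p := by
  subst hn
  let _ : Module (ZMod p) (Rp p K) := AddCommGroup.zmodModule (p_smul_Rp (p := p) (K := K))
  obtain ⟨g₀, hgen⟩ := exists_generators (K := K)
  let G : Fin (Units.rank K + 1) → (𝓞 K)ˣ := Fin.cons g₀ (Units.fundSystem K)
  have hG : ∀ u : (𝓞 K)ˣ, ∃ d : Fin (Units.rank K + 1) → ℤ, u = ∏ j, G j ^ d j := by
    intro u
    obtain ⟨k, e, hke⟩ := hgen u
    refine ⟨Fin.cons k e, ?_⟩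
    rw [Fin.prod_univ_succ, hke]
    simp [G]
  have hdl : dlog hζ u = 0 := dlog_eq_zero_of_dvd hζ u m hu
  exact kummer_abstract p (dlogHom hζ) G hG ε hind u (by
    show Multiplicative.ofAdd (dlog hζ u) = 1
    rw [hdl]; rfl)


lemma dlog_mkOfMulEqOne (x y : 𝓞 K) (h : x * y = 1) :
    dlog hζ (Units.mkOfMulEqOne x y h) =
      D hζ x * Ideal.Quotient.mk (Ideal.span {(p : 𝓞 K)}) y := by
  rfl

lemma dvd_coeff (n : ℕ → ℤ)
    (h : (p : 𝓞 K) ∣ ∑ i ∈ Finset.range (p - 1), (n i : 𝓞 K) * hζ.toInteger ^ i) :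
    ∀ i < p - 1, (p : ℤ) ∣ n i := by
  intro i hi
  obtain ⟨w, hw⟩ := h
  set B := hζ.integralPowerBasis with hB
  have hdim : B.dim = p - 1 := by
    rw [hB, hζ.integralPowerBasis_dim, Nat.totient_prime hp.out]
  have hgen : B.gen = hζ.toInteger := hζ.integralPowerBasis_gen
  have hsum : ∑ i ∈ Finset.range (p - 1), (n i : 𝓞 K) * hζ.toInteger ^ i =
      ∑ j : Fin B.dim, (n j) • B.basis j := by
    rw [← hdim, Finset.sum_range]
    refine Finset.sum_congr rfl (fun j _ => ?_)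
    rw [PowerBasis.basis_eq_pow, hgen, zsmul_eq_mul]
  rw [hsum] at hw
  have hrepr := congrArg (fun x => B.basis.repr x ⟨i, hdim ▸ hi⟩) hw
  simp only [Module.Basis.repr_sum_self] at hrepr
  have h2 : B.basis.repr ((p : 𝓞 K) * w) ⟨i, hdim ▸ hi⟩ = (p : ℤ) * B.basis.repr w ⟨i, hdim ▸ hi⟩ := by
    have : ((p : 𝓞 K) * w) = (p : ℤ) • w := by simp
    rw [this, map_smul]
    simp
  rw [h2] at hrepr
  exact ⟨_, hrepr⟩

end Fermat.Agent.Kummer.DLog
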