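import Mathlib

set_option autoImplicit false

namespace Fermat.Agent.Kummer

open NumberField Polynomial Ideal

namespace DegOneCert

/-- A degree-one prime above `q` in a cyclotomic ring of integers, given by `ζ ↦ t`, is principal
as soon as a certificate `α` is supplied. -/
theorem exists_principal_primesOver (p q : ℕ) [NeZero p] [Fact q.Prime]
    (K : Type*) [Field K] [NumberField K] [IsCyclotomicExtension {p} ℚ K] (t : ℤ)
    (ht : (q : ℤ) ∣ eval t (cyclotomic p ℤ))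
    (α β γ A B : 𝓞 K) (h1 : α * β = (q : 𝓞 K))
    (h2 : α * γ = (IsCyclotomicExtension.zeta_spec p ℚ K).toInteger - (t : 𝓞 K))
    (h3 : α = (q : 𝓞 K) * A + ((IsCyclotomicExtension.zeta_spec p ℚ K).toInteger - (t : 𝓞 K)) * B) :
    ∃ P ∈ primesOver (span {(q : ℤ)}) (𝓞 K), Submodule.IsPrincipal P := by
  set hζ := IsCyclotomicExtension.zeta_spec p ℚ K with hζdef
  set ζ := hζ.toInteger with hζ'
  let pb := hζ.integralPowerBasis
  have hgen : pb.gen = ζ := hζ.integralPowerBasis_gen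
  have hmin : minpoly ℤ pb.gen = cyclotomic p ℤ := by
    rw [hgen, hζ', ← RingOfIntegers.minpoly_coe]
    exact (cyclotomic_eq_minpoly hζ (NeZero.pos p)).symm
  have hy : aeval ((t : ℤ) : ZMod q) (minpoly ℤ pb.gen) = 0 := by
    rw [hmin]
    have h := ht
    rw [← ZMod.intCast_zmod_eq_zero_iff_dvd] at h
    rw [← h]
    have := aeval_algebraMap_apply (ZMod q) t (cyclotomic p ℤ)
    simpa using this
  let φ : 𝓞 K →ₐ[ℤ] ZMod q := pb.lift ((t : ℤ) : ZMod q) hy
  have hφζ : φ ζ = ((t : ℤ) : ZMod q) := by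
    rw [← hgen]
    exact pb.lift_gen _ hy
  let P : Ideal (𝓞 K) := RingHom.ker (φ : 𝓞 K →+* ZMod q)
  have hPprime : P.IsPrime := RingHom.ker_isPrime _
  have hPover : P.LiesOver (span {(q : ℤ)}) := by
    rw [liesOver_iff]
    ext n
    rw [Ideal.mem_span_singleton, Ideal.under, Ideal.mem_comap, RingHom.mem_ker]
    have : (φ : 𝓞 K →+* ZMod q) (algebraMap ℤ (𝓞 K) n) = (n : ZMod q) := by
      simp
    rw [this, ZMod.intCast_zmod_eq_zero_iff_dvd]
  refine ⟨P, ⟨hPprime, hPover⟩, ⟨α, ?_⟩⟩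
  apply le_antisymm
  · intro x hx
    rw [RingHom.mem_ker] at hx
    obtain ⟨g, hg⟩ := pb.exists_eq_aeval' x
    rw [hgen] at hg
    have hφx : (φ : 𝓞 K →+* ZMod q) x = ((eval t g : ℤ) : ZMod q) := by
      rw [hg]
      have h1 : (φ : 𝓞 K →+* ZMod q) (aeval ζ g) = aeval (φ ζ) g := by
        change φ (aeval ζ g) = _
        rw [← aeval_algHom_apply]
      rw [h1, hφζ]
      have := aeval_algebraMap_apply (ZMod q) t g
      simpa using this
    rw [hφx, ZMod.intCast_zmod_eq_zero_iff_dvd] at hx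
    obtain ⟨k, hk⟩ := hx
    obtain ⟨h, hh⟩ := X_sub_C_dvd_sub_C_eval (a := t) (p := g)
    have hxeq : x = (ζ - (t : 𝓞 K)) * aeval ζ h + (q : 𝓞 K) * (k : 𝓞 K) := by
      have h5 : g = (X - C t) * h + C (eval t g) := by rw [← hh]; ring
      rw [hg]
      conv_lhs => rw [h5]
      simp only [map_add, map_mul, map_sub, aeval_X, aeval_C, hk]
      simp
    rw [hxeq, ← h2, ← h1]
    change _ ∈ Ideal.span {α}
    rw [Ideal.mem_span_singleton]
    exact ⟨γ * aeval ζ h + β * k, by ring⟩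
  · change Ideal.span {α} ≤ P
    rw [Ideal.span_singleton_le_iff_mem, RingHom.mem_ker, h3]
    have hq0 : (φ : 𝓞 K →+* ZMod q) (q : 𝓞 K) = 0 := by simp
    have hz0 : (φ : 𝓞 K →+* ZMod q) (ζ - (t : 𝓞 K)) = 0 := by
      rw [map_sub]
      have : (φ : 𝓞 K →+* ZMod q) ζ = ((t : ℤ) : ZMod q) := hφζ
      rw [this]
      simp
    rw [map_add, map_mul, map_mul, hq0, hz0]
    simp

end DegOneCert

end Fermat.Agent.Kummer
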