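import Fermat.Agent.Kummer.DLog

set_option autoImplicit false
set_option linter.unusedSectionVars false
set_option linter.unusedVariables false
set_option linter.unusedSimpArgs false
set_option linter.unusedTactic false

open NumberField Polynomial

namespace Fermat.Agent.Kummer.KL11

open Fermat.Agent.Kummer.DLog

variable {K : Type*} [Field K] [NumberField K] [Fact (Nat.Prime 11)]
  [IsCyclotomicExtension {11} ℚ K] {ζ : K} (hζ : IsPrimitiveRoot ζ 11)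

local notation "z" => IsPrimitiveRoot.toInteger hζ

lemma hPhi : 1 + z + z ^ 2 + z ^ 3 + z ^ 4 + z ^ 5 + z ^ 6 + z ^ 7 + z ^ 8 + z ^ 9 + z ^ 10 = (0 : 𝓞 K) := by
  have h := hζ.toInteger_isPrimitiveRoot.geom_sum_eq_zero (by norm_num)
  simp only [Finset.sum_range_succ, Finset.sum_range_zero, pow_zero, pow_one, zero_add] at h
  linear_combination h

lemma dvd_coeffs (n0 n1 n2 n3 n4 n5 n6 n7 n8 n9 : ℤ)
    (h : (11 : 𝓞 K) ∣ (n0 : 𝓞 K) + (n1 : 𝓞 K) * z + (n2 : 𝓞 K) * z ^ 2 + (n3 : 𝓞 K) * z ^ 3 + (n4 : 𝓞 K) * z ^ 4 + (n5 : 𝓞 K) * z ^ 5 + (n6 : 𝓞 K) * z ^ 6 + (n7 : 𝓞 K) * z ^ 7 + (n8 : 𝓞 K) * z ^ 8 + (n9 : 𝓞 K) * z ^ 9) :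
    (11 : ℤ) ∣ n0 ∧ (11 : ℤ) ∣ n1 ∧ (11 : ℤ) ∣ n2 ∧ (11 : ℤ) ∣ n3 ∧ (11 : ℤ) ∣ n4 ∧ (11 : ℤ) ∣ n5 ∧ (11 : ℤ) ∣ n6 ∧ (11 : ℤ) ∣ n7 ∧ (11 : ℤ) ∣ n8 ∧ (11 : ℤ) ∣ n9 := by
  have e : ∑ i ∈ Finset.range (11 - 1), ((((fun i : ℕ => if i = 0 then n0 else if i = 1 then n1 else if i = 2 then n2 else if i = 3 then n3 else if i = 4 then n4 else if i = 5 then n5 else if i = 6 then n6 else if i = 7 then n7 else if i = 8 then n8 else if i = 9 then n9 else 0)) i : ℤ) : 𝓞 K) * z ^ i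
      = (n0 : 𝓞 K) + (n1 : 𝓞 K) * z + (n2 : 𝓞 K) * z ^ 2 + (n3 : 𝓞 K) * z ^ 3 + (n4 : 𝓞 K) * z ^ 4 + (n5 : 𝓞 K) * z ^ 5 + (n6 : 𝓞 K) * z ^ 6 + (n7 : 𝓞 K) * z ^ 7 + (n8 : 𝓞 K) * z ^ 8 + (n9 : 𝓞 K) * z ^ 9 := by
    simp [Finset.sum_range_succ]
  have key := dvd_coeff hζ (fun i : ℕ => if i = 0 then n0 else if i = 1 then n1 else if i = 2 then n2 else if i = 3 then n3 else if i = 4 then n4 else if i = 5 then n5 else if i = 6 then n6 else if i = 7 then n7 else if i = 8 then n8 else if i = 9 then n9 else 0) (by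
    rw [e]; exact_mod_cast h)
  refine ⟨?_, ?_, ?_, ?_, ?_, ?_, ?_, ?_, ?_, ?_⟩
  · have := key 0 (by norm_num); simpa using this
  · have := key 1 (by norm_num); simpa using this
  · have := key 2 (by norm_num); simpa using this
  · have := key 3 (by norm_num); simpa using this
  · have := key 4 (by norm_num); simpa using this
  · have := key 5 (by norm_num); simpa using this
  · have := key 6 (by norm_num); simpa using this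
  · have := key 7 (by norm_num); simpa using this
  · have := key 8 (by norm_num); simpa using this
  · have := key 9 (by norm_num); simpa using this

/-- The unit `ζ`. -/
noncomputable def u0 : (𝓞 K)ˣ := Units.mkOfMulEqOne z (z ^ 10) (by
  linear_combination (z - 1) * hPhi hζ)

lemma dlog_u0 : dlog hζ (u0 hζ) = Ideal.Quotient.mk (Ideal.span {((11 : ℕ) : 𝓞 K)}) ((-1) + (1) * z) := by
  rw [u0, dlog_mkOfMulEqOne, D_zeta, ← map_mul]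
  congr 1
  linear_combination ((1) + (-2) * z + (1) * z ^ 2) * hPhi hζ

/-- The cyclotomic unit `(ζ^2 - 1)/(ζ - 1)`. -/
noncomputable def u1 : (𝓞 K)ˣ := Units.mkOfMulEqOne (1 + z) (1 + z ^ 2 + z ^ 4 + z ^ 6 + z ^ 8 + z ^ 10) (by
  linear_combination ((1) * z) * hPhi hζ)

lemma dlog_u1 : dlog hζ (u1 hζ) = Ideal.Quotient.mk (Ideal.span {((11 : ℕ) : 𝓞 K)}) ((-2) + (-1) * z + (-2) * z ^ 3 + (-2) * z ^ 5 + (-2) * z ^ 7 + (-2) * z ^ 9) := by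
  rw [u1, dlog_mkOfMulEqOne]
  simp only [D_add, D_one, D_zeta, D_zeta_pow, zero_add, ← map_mul, ← map_add]
  congr 1
  push_cast
  linear_combination ((2) + (-2) * z + (1) * z ^ 2) * hPhi hζ

/-- The cyclotomic unit `(ζ^3 - 1)/(ζ - 1)`. -/
noncomputable def u2 : (𝓞 K)ˣ := Units.mkOfMulEqOne (1 + z + z ^ 2) (1 + z ^ 3 + z ^ 6 + z ^ 9) (by
  linear_combination ((1) * z) * hPhi hζ)

lemma dlog_u2 : dlog hζ (u2 hζ) = Ideal.Quotient.mk (Ideal.span {((11 : ℕ) : 𝓞 K)}) ((2) * z + (3) * z ^ 3 + (3) * z ^ 6 + (3) * z ^ 9) := by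
  rw [u2, dlog_mkOfMulEqOne]
  simp only [D_add, D_one, D_zeta, D_zeta_pow, zero_add, ← map_mul, ← map_add]
  congr 1
  push_cast
  linear_combination ((-3) * z + (2) * z ^ 2) * hPhi hζ

/-- The cyclotomic unit `(ζ^4 - 1)/(ζ - 1)`. -/
noncomputable def u3 : (𝓞 K)ˣ := Units.mkOfMulEqOne (1 + z + z ^ 2 + z ^ 3) (1 + z ^ 4 + z ^ 8) (by
  linear_combination ((1) * z) * hPhi hζ)

lemma dlog_u3 : dlog hζ (u3 hζ) = Ideal.Quotient.mk (Ideal.span {((11 : ℕ) : 𝓞 K)}) ((3) * z + (4) * z ^ 4 + (4) * z ^ 8) := by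
  rw [u3, dlog_mkOfMulEqOne]
  simp only [D_add, D_one, D_zeta, D_zeta_pow, zero_add, ← map_mul, ← map_add]
  congr 1
  push_cast
  linear_combination ((-4) * z + (3) * z ^ 2) * hPhi hζ

/-- The cyclotomic unit `(ζ^5 - 1)/(ζ - 1)`. -/
noncomputable def u4 : (𝓞 K)ˣ := Units.mkOfMulEqOne (1 + z + z ^ 2 + z ^ 3 + z ^ 4) (1 + z ^ 5 + z ^ 10 + z ^ 4 + z ^ 9 + z ^ 3 + z ^ 8 + z ^ 2 + z ^ 7) (by
  linear_combination ((1) * z + (1) * z ^ 2 + (1) * z ^ 3 + (1) * z ^ 4) * hPhi hζ)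

lemma dlog_u4 : dlog hζ (u4 hζ) = Ideal.Quotient.mk (Ideal.span {((11 : ℕ) : 𝓞 K)}) ((-5) + (-1) * z + (-5) * z ^ 6) := by
  rw [u4, dlog_mkOfMulEqOne]
  simp only [D_add, D_one, D_zeta, D_zeta_pow, zero_add, ← map_mul, ← map_add]
  congr 1
  push_cast
  linear_combination ((5) + (-5) * z + (-1) * z ^ 2 + (-1) * z ^ 3 + (-1) * z ^ 4 + (4) * z ^ 5) * hPhi hζ

/-- The family of explicit units. -/
noncomputable def units : Fin 5 → (𝓞 K)ˣ := ![u0 hζ, u1 hζ, u2 hζ, u3 hζ, u4 hζ]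

lemma indep (c : Fin 5 → ℤ) (hc : (∑ a, c a • dlog hζ (units hζ a)) = 0) :
    ∀ a, ((11 : ℕ) : ℤ) ∣ c a := by
  have e0 : units hζ 0 = u0 hζ := rfl
  have e1 : units hζ 1 = u1 hζ := rfl
  have e2 : units hζ 2 = u2 hζ := rfl
  have e3 : units hζ 3 = u3 hζ := rfl
  have e4 : units hζ 4 = u4 hζ := rfl
  have h1 : Ideal.Quotient.mk (Ideal.span {((11 : ℕ) : 𝓞 K)}) (((c 0 : ℤ) : 𝓞 K) * ((-1) + (1) * z) + ((c 1 : ℤ) : 𝓞 K) * ((-2) + (-1) * z + (-2) * z ^ 3 + (-2) * z ^ 5 + (-2) * z ^ 7 + (-2) * z ^ 9) + ((c 2 : ℤ) : 𝓞 K) * ((2) * z + (3) * z ^ 3 + (3) * z ^ 6 + (3) * z ^ 9) + ((c 3 : ℤ) : 𝓞 K) * ((3) * z + (4) * z ^ 4 + (4) * z ^ 8) + ((c 4 : ℤ) : 𝓞 K) * ((-5) + (-1) * z + (-5) * z ^ 6)) = 0 := by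
    rw [← hc, Fin.sum_univ_five, e0, e1, e2, e3, e4, dlog_u0 hζ, dlog_u1 hζ, dlog_u2 hζ, dlog_u3 hζ, dlog_u4 hζ]
    simp only [zsmul_eq_mul, map_add, map_mul, map_intCast]
  rw [Ideal.Quotient.eq_zero_iff_mem, Ideal.mem_span_singleton] at h1
  have e : ((((-1) * c 0 + (-2) * c 1 + (-5) * c 4 : ℤ)) : 𝓞 K) + ((((1) * c 0 + (-1) * c 1 + (2) * c 2 + (3) * c 3 + (-1) * c 4 : ℤ)) : 𝓞 K) * z + (((0 : ℤ)) : 𝓞 K) * z ^ 2 + ((((-2) * c 1 + (3) * c 2 : ℤ)) : 𝓞 K) * z ^ 3 + ((((4) * c 3 : ℤ)) : 𝓞 K) * z ^ 4 + ((((-2) * c 1 : ℤ)) : 𝓞 K) * z ^ 5 + ((((3) * c 2 + (-5) * c 4 : ℤ)) : 𝓞 K) * z ^ 6 + ((((-2) * c 1 : ℤ)) : 𝓞 K) * z ^ 7 + ((((4) * c 3 : ℤ)) : 𝓞 K) * z ^ 8 + ((((-2) * c 1 + (3) * c 2 : ℤ)) : 𝓞 K) * z ^ 9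
      = ((c 0 : ℤ) : 𝓞 K) * ((-1) + (1) * z) + ((c 1 : ℤ) : 𝓞 K) * ((-2) + (-1) * z + (-2) * z ^ 3 + (-2) * z ^ 5 + (-2) * z ^ 7 + (-2) * z ^ 9) + ((c 2 : ℤ) : 𝓞 K) * ((2) * z + (3) * z ^ 3 + (3) * z ^ 6 + (3) * z ^ 9) + ((c 3 : ℤ) : 𝓞 K) * ((3) * z + (4) * z ^ 4 + (4) * z ^ 8) + ((c 4 : ℤ) : 𝓞 K) * ((-5) + (-1) * z + (-5) * z ^ 6) := by
    push_cast
    ring
  have h2 := dvd_coeffs hζ ((-1) * c 0 + (-2) * c 1 + (-5) * c 4) ((1) * c 0 + (-1) * c 1 + (2) * c 2 + (3) * c 3 + (-1) * c 4) (0) ((-2) * c 1 + (3) * c 2) ((4) * c 3) ((-2) * c 1) ((3) * c 2 + (-5) * c 4) ((-2) * c 1) ((4) * c 3) ((-2) * c 1 + (3) * c 2) (by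
    rw [e]; exact_mod_cast h1)
  obtain ⟨⟨t0, ht0⟩, ⟨t1, ht1⟩, ⟨t2, ht2⟩, ⟨t3, ht3⟩, ⟨t4, ht4⟩, ⟨t5, ht5⟩, ⟨t6, ht6⟩, ⟨t7, ht7⟩, ⟨t8, ht8⟩, ⟨t9, ht9⟩⟩ := h2
  have r0 : (11 : ℤ) ∣ c 0 := ⟨(-2) * t0 + (-1) * t1 + (-3) * t3 + (-2) * t4 + (-1) * c 1 + (1) * c 2 + (1) * c 3 + (-1) * c 4, by
    linear_combination (-2) * ht0 + (-1) * ht1 + (-3) * ht3 + (-2) * ht4⟩
  have r1 : (11 : ℤ) ∣ c 1 := ⟨(5) * t5 + (1) * c 1, by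
    linear_combination (5) * ht5⟩
  have r2 : (11 : ℤ) ∣ c 2 := ⟨(4) * t3 + (-4) * t5 + (-1) * c 2, by
    linear_combination (4) * ht3 + (-4) * ht5⟩
  have r3 : (11 : ℤ) ∣ c 3 := ⟨(3) * t4 + (-1) * c 3, by
    linear_combination (3) * ht4⟩
  have r4 : (11 : ℤ) ∣ c 4 := ⟨(-2) * t0 + (-2) * t1 + (5) * t3 + (-4) * t4 + (-2) * t5 + (-1) * c 2 + (2) * c 3 + (-1) * c 4, by
    linear_combination (-2) * ht0 + (-2) * ht1 + (5) * ht3 + (-4) * ht4 + (-2) * ht5⟩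
  intro a
  fin_cases a
  · exact_mod_cast r0
  · exact_mod_cast r1
  · exact_mod_cast r2
  · exact_mod_cast r3
  · exact_mod_cast r4

theorem kummer (hrank : Units.rank K + 1 = 5) (u : (𝓞 K)ˣ) (m : ℤ)
    (hu : ((11 : ℕ) : 𝓞 K) ∣ (u : 𝓞 K) - m) : ∃ v : (𝓞 K)ˣ, u = v ^ 11 :=
  kummer_of_units (IsCyclotomicExtension.zeta_spec 11 ℚ K) 5 hrank
    (units (IsCyclotomicExtension.zeta_spec 11 ℚ K)) (indep (IsCyclotomicExtension.zeta_spec 11 ℚ K)) u m hu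

end Fermat.Agent.Kummer.KL11
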