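import Mathlib

set_option autoImplicit false

namespace Fermat.Agent.Kummer

open NumberField NumberField.Units NumberField.InfinitePlace IsCyclotomicExtension.Rat

/-- The unit rank of the `p`-th cyclotomic field is `(p - 3) / 2`. -/
theorem rank_cyclotomic {p : ℕ} [Fact p.Prime] (hp : 3 ≤ p) {K : Type*} [Field K]
    [NumberField K] [IsCyclotomicExtension {p} ℚ K] : rank K = (p - 3) / 2 := by
  have : NeZero p := ⟨(Fact.out : p.Prime).ne_zero⟩
  dsimp only [rank]
  rw [card_eq_nrRealPlaces_add_nrComplexPlaces, nrRealPlaces_eq_zero (n := p) K (by omega),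
    zero_add, nrComplexPlaces_eq_totient_div_two (n := p), Nat.totient_prime Fact.out]
  omega

theorem rank_add_one {p : ℕ} [Fact p.Prime] (hp : 3 ≤ p) {K : Type*} [Field K]
    [NumberField K] [IsCyclotomicExtension {p} ℚ K] :
    NumberField.Units.rank K + 1 = (p - 1) / 2 := by
  rw [rank_cyclotomic hp]
  have h2 : p % 2 = 1 := by
    rcases (Fact.out : p.Prime).eq_two_or_odd with h | h
    · omega
    · exact h
  omega

end Fermat.Agent.Kummer
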