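import Mathlib
import Fermat.Agent.Kummer.DLog
import Fermat.Agent.Kummer.Rank

set_option autoImplicit false
set_option linter.unusedSectionVars false

open NumberField Polynomial

namespace Fermat.Agent.Kummer.KLCommon

open Fermat.Agent.Kummer.DLog

variable {p : ℕ} [hp : Fact p.Prime] {K : Type*} [Field K] [NumberField K]
  [hK : IsCyclotomicExtension {p} ℚ K] {ζ : K} (hζ : IsPrimitiveRoot ζ p)

/-- The reduction map `𝓞 K → 𝓞 K / p`. -/
noncomputable abbrev red (p : ℕ) (K : Type*) [Field K] : 𝓞 K →+* Rp p K :=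
  Ideal.Quotient.mk (Ideal.span {(p : 𝓞 K)})

omit hp hK in
lemma dvd_of_red_eq_zero (x : 𝓞 K) (h : red p K x = 0) : (p : 𝓞 K) ∣ x :=
  Ideal.mem_span_singleton.mp (Ideal.Quotient.eq_zero_iff_mem.mp h)

lemma dlog_mul_red (u : (𝓞 K)ˣ) : dlog hζ u * red p K (u : 𝓞 K) = D hζ (u : 𝓞 K) := by
  have h := mk_unit_mul_inv (p := p) u
  unfold dlog
  calc D hζ (u : 𝓞 K) * red p K ((u⁻¹ : (𝓞 K)ˣ) : 𝓞 K) * red p K (u : 𝓞 K)
      = D hζ (u : 𝓞 K) * (red p K (u : 𝓞 K) * red p K ((u⁻¹ : (𝓞 K)ˣ) : 𝓞 K)) := by ring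
    _ = D hζ (u : 𝓞 K) := by rw [h, mul_one]

lemma D_geom (k : ℕ) : D hζ (∑ i ∈ Finset.range k, hζ.toInteger ^ i) =
    red p K ((hζ.toInteger - 1) * ∑ i ∈ Finset.range k, (i : 𝓞 K) * hζ.toInteger ^ i) := by
  induction k with
  | zero =>
    simp only [Finset.range_zero, Finset.sum_empty, mul_zero, map_zero]
    have := D_intCast hζ (0 : ℤ)
    simpa using this
  | succ k ih =>
    rw [Finset.sum_range_succ, D_add, ih, D_zeta_pow, Finset.sum_range_succ, ← map_add]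
    congr 1
    ring

omit hK in
lemma sum_pow_eq_zero : ∑ i ∈ Finset.range p, hζ.toInteger ^ i = 0 := by
  have h := cyclo_aeval_zero hζ
  rw [Polynomial.cyclotomic_prime, map_sum] at h
  simpa using h

/-- If `p` divides `∑ i < p - 1, m i * ζ ^ i` in `𝓞 K`, then `p` divides every `m i`. -/
lemma dvd_coeff_of_dvd_sum (m : ℕ → ℤ)
    (h : (p : 𝓞 K) ∣ ∑ i ∈ Finset.range (p - 1), (m i : 𝓞 K) * hζ.toInteger ^ i) :
    ∀ i < p - 1, (p : ℤ) ∣ m i := by
  have : NeZero p := ⟨hp.out.ne_zero⟩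
  intro i hi
  set B := hζ.integralPowerBasis with hB
  have hdim : B.dim = p - 1 := by
    rw [hB, hζ.integralPowerBasis_dim, Nat.totient_prime hp.out]
  obtain ⟨y, hy⟩ := h
  have hsum : ∑ i ∈ Finset.range (p - 1), (m i : 𝓞 K) * hζ.toInteger ^ i =
      ∑ j : Fin B.dim, (m j) • B.basis j := by
    rw [← hdim, ← Fin.sum_univ_eq_sum_range (fun i => (m i : 𝓞 K) * hζ.toInteger ^ i)]
    refine Finset.sum_congr rfl (fun j _ => ?_)
    have hgen : B.gen = hζ.toInteger := hζ.integralPowerBasis_gen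
    rw [PowerBasis.coe_basis, zsmul_eq_mul, hgen]
  have hrepr := congrArg (fun x => B.basis.repr x ⟨i, hdim ▸ hi⟩) (hsum.symm.trans hy)
  simp only [map_sum, map_zsmul, Module.Basis.repr_self, Finsupp.coe_finsetSum, Finsupp.coe_smul,
    Finset.sum_apply, Pi.smul_apply, Finsupp.single_apply, smul_eq_mul, mul_ite, mul_one,
    mul_zero, Finset.sum_ite_eq', Finset.mem_univ, if_true] at hrepr
  have hpy : (p : 𝓞 K) * y = (p : ℤ) • y := by
    rw [zsmul_eq_mul]; push_cast; ring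
  rw [hpy, map_zsmul] at hrepr
  simp only [Finsupp.coe_smul, Pi.smul_apply, smul_eq_mul] at hrepr
  exact ⟨_, hrepr⟩

/-- The unit `ζ` of `𝓞 K`. -/
noncomputable def zetaUnit : (𝓞 K)ˣ :=
  (hζ.toInteger_isPrimitiveRoot.isUnit hp.out.ne_zero).unit

lemma coe_zetaUnit : ((zetaUnit hζ : (𝓞 K)ˣ) : 𝓞 K) = hζ.toInteger :=
  IsUnit.unit_spec _

/-- The cyclotomic unit `1 + ζ + ⋯ + ζ ^ (k - 1)` of `𝓞 K`, for `k` prime to `p`. -/
noncomputable def geomUnit (k : ℕ) (hk : k.Coprime p) : (𝓞 K)ˣ :=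
  (hζ.toInteger_isPrimitiveRoot.geom_sum_isUnit hp.out.two_le hk).unit

lemma coe_geomUnit (k : ℕ) (hk : k.Coprime p) :
    ((geomUnit hζ k hk : (𝓞 K)ˣ) : 𝓞 K) = ∑ i ∈ Finset.range k, hζ.toInteger ^ i :=
  IsUnit.unit_spec _

lemma dlog_zetaUnit_mul :
    dlog hζ (zetaUnit hζ) * red p K hζ.toInteger =
      red p K (hζ.toInteger * (hζ.toInteger - 1)) := by
  have h := dlog_mul_red hζ (zetaUnit hζ)
  rw [coe_zetaUnit] at h
  rw [h, D_zeta]

lemma dlog_geomUnit_mul (k : ℕ) (hk : k.Coprime p) :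
    dlog hζ (geomUnit hζ k hk) * red p K (∑ i ∈ Finset.range k, hζ.toInteger ^ i) =
      red p K ((hζ.toInteger - 1) * ∑ i ∈ Finset.range k, (i : 𝓞 K) * hζ.toInteger ^ i) := by
  have h := dlog_mul_red hζ (geomUnit hζ k hk)
  rw [coe_geomUnit] at h
  rw [h, D_geom]

end Fermat.Agent.Kummer.KLCommon
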