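import Fermat.Agent.Kummer.KL5
import Fermat.Agent.Kummer.KL7
import Fermat.Agent.Kummer.KL11
import Fermat.Agent.Kummer.KL13

set_option autoImplicit false

open NumberField

namespace Fermat.Agent.Kummer

/-- The unit rank of the `p`-th cyclotomic field. -/
theorem rank_add_one_aux {p : ℕ} [Fact p.Prime] (hp : 3 ≤ p) {K : Type*} [Field K] [NumberField K]
    [IsCyclotomicExtension {p} ℚ K] : Units.rank K + 1 = (p - 1) / 2 := by
  have h1 : InfinitePlace.nrRealPlaces K = 0 :=
    IsCyclotomicExtension.Rat.nrRealPlaces_eq_zero (n := p) K (by omega)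
  have h2 : InfinitePlace.nrComplexPlaces K = (p - 1) / 2 := by
    rw [IsCyclotomicExtension.Rat.nrComplexPlaces_eq_totient_div_two p K,
      Nat.totient_prime (Fact.out : p.Prime)]
  have h3 := InfinitePlace.card_eq_nrRealPlaces_add_nrComplexPlaces (K := K)
  rw [h1, h2, zero_add] at h3
  rw [Units.rank, h3]
  have : 1 ≤ (p - 1) / 2 := by omega
  omega

/-- Kummer's lemma for the primes `5, 7, 11, 13`: a unit of the `p`-th cyclotomic ring which is
congruent to a rational integer modulo `p` is a `p`-th power. -/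
theorem kummer_lemma {p : ℕ} [Fact p.Prime] (hp : p = 5 ∨ p = 7 ∨ p = 11 ∨ p = 13)
    {K : Type*} [Field K] [NumberField K] [IsCyclotomicExtension {p} ℚ K]
    (u : (𝓞 K)ˣ) (n : ℤ) (h : (p : 𝓞 K) ∣ (u : 𝓞 K) - n) : ∃ v : (𝓞 K)ˣ, u = v ^ p := by
  rcases hp with rfl | rfl | rfl | rfl
  · exact KL5.kummer (rank_add_one_aux (p := 5) (by norm_num)) u n h
  · exact KL7.kummer (rank_add_one_aux (p := 7) (by norm_num)) u n h
  · exact KL11.kummer (rank_add_one_aux (p := 11) (by norm_num)) u n h
  · exact KL13.kummer (rank_add_one_aux (p := 13) (by norm_num)) u n h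

end Fermat.Agent.Kummer
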