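import Mathlib

namespace Fermat.Agent.Kummer

open NumberField Polynomial InfinitePlace Nat Real Ideal Module IsCyclotomicExtension.Rat

namespace PID11

theorem minkowski_lt (K : Type*) [Field K] [NumberField K] [IsCyclotomicExtension {11} ℚ K] :
    (4 / π) ^ nrComplexPlaces K *
      ((finrank ℚ K)! / (finrank ℚ K) ^ (finrank ℚ K) * √|(discr K : ℝ)|) < 60 := by
  have : Fact (Nat.Prime 11) := ⟨by norm_num⟩
  rw [discr_prime 11 K, IsCyclotomicExtension.finrank (n := 11) K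
    (Polynomial.cyclotomic.irreducible_rat (by simp)), nrComplexPlaces_eq_totient_div_two 11,
    totient_prime (by norm_num)]
  have h10 : (10 : ℕ)! = 3628800 := by decide
  have hpi : (3.14 : ℝ) < π := pi_gt_d2
  have hsq : √|(((-1 : ℤ) ^ ((11 - 1) / 2) * ((11 : ℕ) : ℤ) ^ (11 - 2) : ℤ) : ℝ)| < 48559 := by
    rw [Real.sqrt_lt' (by norm_num)]
    norm_num
  have h4 : (4 / π) ^ 5 < (4 / 3.14 : ℝ) ^ 5 := by
    gcongr
  have hpos : (0 : ℝ) < (4 / π) ^ 5 := by positivity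
  have hsq0 : 0 ≤ √|(((-1 : ℤ) ^ ((11 - 1) / 2) * ((11 : ℕ) : ℤ) ^ (11 - 2) : ℤ) : ℝ)| :=
    Real.sqrt_nonneg _
  simp only [show (11 - 1) / 2 = 5 by norm_num, show 11 - 1 = 10 by norm_num, h10] at *
  calc (4 / π) ^ 5 * ((3628800 : ℕ) / ((10 : ℕ) : ℝ) ^ 10 *
          √|(((-1 : ℤ) ^ 5 * ((11 : ℕ) : ℤ) ^ (11 - 2) : ℤ) : ℝ)|)
      ≤ (4 / 3.14 : ℝ) ^ 5 * ((3628800 : ℕ) / ((10 : ℕ) : ℝ) ^ 10 * 48559) := by
        gcongr
    _ < 60 := by norm_num

/-- If a prime `P` of `𝓞 K` over `q` has inertia degree one, every element is congruent to an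
integer modulo `P`. -/
theorem exists_int_sub_mem {K : Type*} [Field K] [NumberField K] (q : ℕ) (hq : q.Prime)
    (P : Ideal (𝓞 K)) [P.IsPrime] [P.LiesOver (span {(q : ℤ)})]
    (hdeg : P.inertiaDeg ℤ = 1) (x : 𝓞 K) : ∃ t : ℤ, x - (t : 𝓞 K) ∈ P := by
  have hmax : (span {(q : ℤ)}).IsMaximal :=
    (Ideal.isPrime_of_prime (Ideal.prime_span_singleton_iff.mpr
      (Nat.prime_iff_prime_int.mp hq))).isMaximal (by simp [hq.ne_zero])
  have hPmax : P.IsMaximal := Ideal.IsMaximal.of_liesOver_isMaximal P (span {(q : ℤ)})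
  rw [Ideal.inertiaDeg_eq_of_isMaximal (span {(q : ℤ)}) P] at hdeg
  let _ : Field (ℤ ⧸ span {(q : ℤ)}) := Ideal.Quotient.field _
  let _ : Field (𝓞 K ⧸ P) := Ideal.Quotient.field _
  have htop := Subalgebra.bot_eq_top_of_finrank_eq_one hdeg
  have hmem : (Ideal.Quotient.mk P x) ∈ (⊥ : Subalgebra (ℤ ⧸ span {(q : ℤ)}) (𝓞 K ⧸ P)) := by
    rw [htop]; trivial
  obtain ⟨r, hr⟩ := Algebra.mem_bot.mp hmem
  obtain ⟨t, rfl⟩ := Ideal.Quotient.mk_surjective r
  refine ⟨t, ?_⟩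
  rw [← Ideal.Quotient.eq_zero_iff_mem, map_sub, ← hr]
  simp

theorem exists_int_add_mul {R : Type*} [CommRing R] (z : R) (hz : Algebra.adjoin ℤ {z} = ⊤)
    (t : ℤ) (x : R) : ∃ (n : ℤ) (y : R), x = n + (z - t) * y := by
  have hx : x ∈ Algebra.adjoin ℤ {z} := by rw [hz]; trivial
  induction hx using Algebra.adjoin_induction with
  | mem x hx =>
    rw [Set.mem_singleton_iff] at hx
    subst hx
    exact ⟨t, 1, by ring⟩
  | algebraMap r => exact ⟨r, 0, by simp⟩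
  | add x y _ _ hx hy =>
    obtain ⟨n, y1, rfl⟩ := hx
    obtain ⟨m, y2, rfl⟩ := hy
    exact ⟨n + m, y1 + y2, by push_cast; ring⟩
  | mul x y _ _ hx hy =>
    obtain ⟨n, y1, rfl⟩ := hx
    obtain ⟨m, y2, rfl⟩ := hy
    exact ⟨n * m, n * y2 + m * y1 + (z - t) * y1 * y2, by push_cast; ring⟩

theorem isPrincipal_of_sub_two_mem {K : Type*} [Field K] [NumberField K]
    (P : Ideal (𝓞 K)) [P.LiesOver (span {((23 : ℕ) : ℤ)})]
    (z : 𝓞 K) (hz : IsPrimitiveRoot z 11) (hadj : Algebra.adjoin ℤ {z} = ⊤)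
    (hmem : z - 2 ∈ P) : Submodule.IsPrincipal P := by
  have hΦ : 1 + z + z ^ 2 + z ^ 3 + z ^ 4 + z ^ 5 + z ^ 6 + z ^ 7 + z ^ 8 + z ^ 9 + z ^ 10 = 0 := by
    have := hz.geom_sum_eq_zero (by norm_num)
    simpa [Finset.sum_range_succ] using this
  have hover := Ideal.over_def P (span {((23 : ℕ) : ℤ)})
  have h23 : (23 : 𝓞 K) ∈ P := by
    have : ((23 : ℕ) : ℤ) ∈ P.under ℤ := by
      rw [← hover]; exact Ideal.mem_span_singleton_self _
    simpa [Ideal.under_def] using this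
  have hunder : ∀ n : ℤ, (n : 𝓞 K) ∈ P → (23 : ℤ) ∣ n := by
    intro n hn
    have : n ∈ P.under ℤ := by simpa [Ideal.under_def] using hn
    rw [← hover, Ideal.mem_span_singleton] at this
    simpa using this
  refine ⟨⟨1 + z ^ 2 + z ^ 6, ?_⟩⟩
  apply le_antisymm
  · intro x hx
    obtain ⟨n, y, rfl⟩ := exists_int_add_mul z hadj 2 x
    have hn : (n : 𝓞 K) ∈ P := by
      have := P.sub_mem hx (P.mul_mem_right y hmem)
      simpa using this
    obtain ⟨k, rfl⟩ := hunder n hn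
    rw [Ideal.submodule_span_eq, Ideal.mem_span_singleton]
    refine ⟨(7 - z - 5 * z ^ 2 - 7 * z ^ 3 - 8 * z ^ 4 + 3 * z ^ 5 - 3 * z ^ 6 - 6 * z ^ 7
      + 4 * z ^ 8 + 9 * z ^ 9) * k - (1 + z ^ 5 + z ^ 8 + z ^ 9) * y, ?_⟩
    push_cast
    linear_combination (-((-16 + 15 * z + 3 * z ^ 2 - 10 * z ^ 3 - 5 * z ^ 4 + 9 * z ^ 5) * k
      + (1 - 2 * z + z ^ 3 - z ^ 5) * y)) * hΦ
  · rw [Ideal.submodule_span_eq, Ideal.span_singleton_le_iff_mem]
    have : 1 + z ^ 2 + z ^ 6 =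
        23 * 3 + (z - 2) * (34 + 17 * z + 8 * z ^ 2 + 4 * z ^ 3 + 2 * z ^ 4 + z ^ 5) := by ring
    rw [this]
    exact P.add_mem (P.mul_mem_right _ h23) (P.mul_mem_right _ hmem)

theorem exists_exponent : ∀ r : ZMod 23, (∑ i ∈ Finset.range 11, r ^ i = 0) →
    ∃ e, e < 11 ∧ Nat.Coprime e 11 ∧ r ^ e = 2 := by
  decide

theorem exists_primitiveRoot_sub_two_mem {K : Type*} [Field K] [NumberField K]
    [IsCyclotomicExtension {11} ℚ K]
    (P : Ideal (𝓞 K)) [P.IsPrime] [P.LiesOver (span {((23 : ℕ) : ℤ)})]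
    (hdeg : P.inertiaDeg ℤ = 1) :
    ∃ z : 𝓞 K, IsPrimitiveRoot z 11 ∧ Algebra.adjoin ℤ {z} = ⊤ ∧ z - 2 ∈ P := by
  have hζK := IsCyclotomicExtension.zeta_spec 11 ℚ K
  set ζ := hζK.toInteger with hζdef
  have hζ : IsPrimitiveRoot ζ 11 := hζK.toInteger_isPrimitiveRoot
  obtain ⟨t, ht⟩ := exists_int_sub_mem 23 (by norm_num) P hdeg ζ
  have hover := Ideal.over_def P (span {((23 : ℕ) : ℤ)})
  have h23 : (23 : 𝓞 K) ∈ P := by
    have : ((23 : ℕ) : ℤ) ∈ P.under ℤ := by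
      rw [← hover]; exact Ideal.mem_span_singleton_self _
    simpa [Ideal.under_def] using this
  have hunder : ∀ n : ℤ, (n : 𝓞 K) ∈ P → (23 : ℤ) ∣ n := by
    intro n hn
    have : n ∈ P.under ℤ := by simpa [Ideal.under_def] using hn
    rw [← hover, Ideal.mem_span_singleton] at this
    simpa using this
  have hpow : ∀ i : ℕ, ζ ^ i - (t : 𝓞 K) ^ i ∈ P := fun i =>
    Ideal.mem_of_dvd P (sub_dvd_pow_sub_pow ζ (t : 𝓞 K) i) ht
  have hsum : (23 : ℤ) ∣ ∑ i ∈ Finset.range 11, t ^ i := by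
    apply hunder
    have h0 := hζ.geom_sum_eq_zero (by norm_num)
    have : ((∑ i ∈ Finset.range 11, t ^ i : ℤ) : 𝓞 K) =
        - ∑ i ∈ Finset.range 11, (ζ ^ i - (t : 𝓞 K) ^ i) := by
      rw [Finset.sum_sub_distrib, h0]
      push_cast
      ring
    rw [this]
    exact P.neg_mem (P.sum_mem fun i _ => hpow i)
  have hsum' : ∑ i ∈ Finset.range 11, (t : ZMod 23) ^ i = 0 := by
    have := (ZMod.intCast_zmod_eq_zero_iff_dvd (∑ i ∈ Finset.range 11, t ^ i) 23).mpr hsum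
    push_cast at this
    exact this
  obtain ⟨e, he11, hcop, he⟩ := exists_exponent (t : ZMod 23) hsum'
  have hdvd : (23 : ℤ) ∣ t ^ e - 2 := by
    apply (ZMod.intCast_zmod_eq_zero_iff_dvd (t ^ e - 2) 23).mp
    push_cast
    rw [he]
    ring
  refine ⟨ζ ^ e, hζ.pow_of_coprime e hcop, ?_, ?_⟩
  · have := adjoin_singleton_eq_top (hζK.pow_of_coprime e hcop)
    exact this
  · obtain ⟨k, hk⟩ := hdvd
    have h2 : (ζ ^ e - 2 : 𝓞 K) = (ζ ^ e - (t : 𝓞 K) ^ e) + 23 * (k : 𝓞 K) := by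
      have : ((t ^ e - 2 : ℤ) : 𝓞 K) = ((23 * k : ℤ) : 𝓞 K) := by rw [hk]
      push_cast at this
      linear_combination this
    rw [h2]
    exact P.add_mem (hpow e) (P.mul_mem_right _ h23)

theorem lt_pow_of_small : ∀ p ∈ Finset.range 60, ∀ o ∈ Finset.range 6, 2 ≤ p → p ≠ 11 → p ≠ 23 →
    p ≠ 12 → p ≠ 34 → p ≠ 45 → p ≠ 56 → o ≠ 0 → ((p : ℕ) : ZMod 11) ^ o = 1 → 59 < p ^ o := by
  decide

end PID11

theorem pid_eleven (K : Type*) [Field K] [NumberField K] [IsCyclotomicExtension {11} ℚ K] :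
    IsPrincipalIdealRing (𝓞 K) := by
  have hp11 : Fact (Nat.Prime 11) := ⟨by norm_num⟩
  have hM := PID11.minkowski_lt K
  have h60 : ((60 : ℕ) : ℝ) = 60 := by norm_num
  rw [← h60] at hM
  have hfl := (Nat.floor_lt' (by norm_num : (60 : ℕ) ≠ 0)).mpr hM
  apply RingOfIntegers.isPrincipalIdealRing_of_isPrincipal_of_pow_le_of_mem_primesOver_of_mem_Icc
  intro p hp hprime P hP hle
  have hp59 : p ≤ 59 := by
    have := (Finset.mem_Icc.mp hp).2
    omega
  have hle59 : p ^ P.inertiaDeg ℤ ≤ 59 := by omega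
  have : Fact p.Prime := ⟨hprime⟩
  have : P.IsPrime := hP.1
  have : P.LiesOver (span {(p : ℤ)}) := hP.2
  by_cases h11 : p = 11
  · subst h11
    rw [eq_span_zeta_sub_one_of_liesOver' 11 K (IsCyclotomicExtension.zeta_spec 11 ℚ K) P]
    exact ⟨⟨_, rfl⟩⟩
  have hnd : ¬ p ∣ 11 := by
    intro hd
    exact h11 ((Nat.prime_dvd_prime_iff_eq hprime (by norm_num)).mp hd)
  have hdeg := inertiaDeg_eq_of_not_dvd (m := 11) p K P hnd
  by_cases h23 : p = 23
  · subst h23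
    have hdeg1 : P.inertiaDeg ℤ = 1 := by
      rw [hdeg, orderOf_eq_one_iff]
      decide
    obtain ⟨z, hz, hadj, hmem⟩ := PID11.exists_primitiveRoot_sub_two_mem P hdeg1
    exact PID11.isPrincipal_of_sub_two_mem P z hz hadj hmem
  · exfalso
    have hpos : orderOf (p : ZMod 11) ≠ 0 := by
      rw [← hdeg]
      exact (Ideal.inertiaDeg_pos P ℤ).ne'
    rw [hdeg] at hle59
    have hp2 := hprime.two_le
    have ho6 : orderOf (p : ZMod 11) < 6 := by
      by_contra hge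
      have h1 : 2 ^ 6 ≤ 2 ^ orderOf (p : ZMod 11) := Nat.pow_le_pow_right (by norm_num) (by omega)
      have h2 : 2 ^ orderOf (p : ZMod 11) ≤ p ^ orderOf (p : ZMod 11) :=
        Nat.pow_le_pow_left hp2 _
      omega
    have hkey := PID11.lt_pow_of_small p (Finset.mem_range.mpr (by omega))
      (orderOf (p : ZMod 11)) (Finset.mem_range.mpr ho6) hp2 h11 h23
      (by rintro rfl; exact absurd hprime (by norm_num))
      (by rintro rfl; exact absurd hprime (by norm_num))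
      (by rintro rfl; exact absurd hprime (by norm_num))
      (by rintro rfl; exact absurd hprime (by norm_num))
      hpos (pow_orderOf_eq_one _)
    omega

end Fermat.Agent.Kummer
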