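import Mathlib

open NumberField Polynomial Ideal Module InfinitePlace Nat Real IsCyclotomicExtension
  IsCyclotomicExtension.Rat
open RingOfIntegers NumberField.Ideal

namespace Fermat.Agent.Kummer.PID13

variable (K : Type*) [Field K] [NumberField K] [IsCyclotomicExtension {13} ℚ K]

theorem minkowski_floor_le : ⌊(4 / π) ^ nrComplexPlaces K *
    ((finrank ℚ K)! / (finrank ℚ K) ^ (finrank ℚ K) * √|(discr K : ℝ)|)⌋₊ ≤ 306 := by
  have : Fact (Nat.Prime 13) := ⟨by norm_num⟩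
  rw [discr_prime 13 K, IsCyclotomicExtension.finrank (n := 13) K
    (cyclotomic.irreducible_rat (by simp)), nrComplexPlaces_eq_totient_div_two 13,
    totient_prime (by norm_num : Nat.Prime 13)]
  have h12 : ((13 - 1 : ℕ)! : ℝ) = 479001600 := by
    norm_num [Nat.factorial]
  have hd : |(((-1 : ℤ) ^ ((13 - 1) / 2) * ((13 : ℕ) : ℤ) ^ (13 - 2) : ℤ) : ℝ)|
      = 1792160394037 := by
    norm_num
  rw [h12, hd]
  have hs : √(1792160394037 : ℝ) < 1338717 := by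
    rw [Real.sqrt_lt' (by norm_num)]
    norm_num
  have hpi : (4 / π : ℝ) < 4 / 3.1415 := by
    apply div_lt_div_of_pos_left (by norm_num) (by norm_num) Real.pi_gt_d4
  have h6 : (13 - 1) / 2 = 6 := by norm_num
  rw [h6]
  have hpi6 : (4 / π : ℝ) ^ 6 ≤ (4 / 3.1415) ^ 6 :=
    pow_le_pow_left₀ (by positivity) hpi.le 6
  have hlt : (4 / π) ^ 6 * (479001600 / ((13 - 1 : ℕ) : ℝ) ^ (13 - 1)
      * √(1792160394037 : ℝ)) < 307 := by
    calc (4 / π) ^ 6 * (479001600 / ((13 - 1 : ℕ) : ℝ) ^ (13 - 1) * √(1792160394037 : ℝ))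
        ≤ (4 / 3.1415) ^ 6 * (479001600 / ((13 - 1 : ℕ) : ℝ) ^ (13 - 1)
            * √(1792160394037 : ℝ)) := by
          gcongr
      _ ≤ (4 / 3.1415) ^ 6 * (479001600 / ((13 - 1 : ℕ) : ℝ) ^ (13 - 1) * 1338717) := by
          gcongr
      _ < 307 := by norm_num
  exact Nat.lt_succ_iff.mp ((Nat.floor_lt (by positivity)).mpr hlt)

set_option maxRecDepth 1000000 in
theorem key_order : ∀ p ∈ Finset.Icc 2 306, ∀ f ∈ Finset.Icc 1 8, p ^ f ≤ 306 → p ^ f % 13 = 1 →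
    (p = 3 ∨ p = 53 ∨ p = 79 ∨ p = 131 ∨ p = 157 ∨ ∃ d ∈ Finset.Icc 2 17, d ∣ p ∧ d < p) := by
  decide

theorem generic_prime (p : ℕ) (hprime : p.Prime) (hp306 : p ≤ 306) (h13 : p ≠ 13)
    (hsp : ¬ (p = 3 ∨ p = 53 ∨ p = 79 ∨ p = 131 ∨ p = 157)) :
    306 < p ^ orderOf ((p : ℕ) : ZMod 13) := by
  have : Fact (Nat.Prime 13) := ⟨by norm_num⟩
  set f := orderOf ((p : ℕ) : ZMod 13) with hf
  have hpne : ((p : ℕ) : ZMod 13) ≠ 0 := by
    rw [Ne, ZMod.natCast_eq_zero_iff]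
    intro hdvd
    exact h13 ((Nat.prime_dvd_prime_iff_eq (by norm_num) hprime).mp hdvd).symm
  have hfpos : 0 < f := by
    rw [hf, orderOf_pos_iff, isOfFinOrder_iff_pow_eq_one]
    exact ⟨12, by norm_num, ZMod.pow_card_sub_one_eq_one hpne⟩
  have hpow : ((p : ℕ) : ZMod 13) ^ f = 1 := pow_orderOf_eq_one _
  by_contra hle
  rw [not_lt] at hle
  have hmod : p ^ f % 13 = 1 := by
    have h1 : ((p ^ f : ℕ) : ZMod 13) = ((1 : ℕ) : ZMod 13) := by
      push_cast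
      exact hpow
    have := (ZMod.natCast_eq_natCast_iff' _ _ _).mp h1
    simpa using this
  have hf8 : f ≤ 8 := by
    by_contra h9
    rw [not_le] at h9
    have : 2 ^ 9 ≤ p ^ f := by
      calc 2 ^ 9 ≤ 2 ^ f := Nat.pow_le_pow_right (by norm_num) h9
        _ ≤ p ^ f := Nat.pow_le_pow_left hprime.two_le f
    omega
  rcases key_order p (Finset.mem_Icc.mpr ⟨hprime.two_le, hp306⟩) f
    (Finset.mem_Icc.mpr ⟨hfpos, hf8⟩) hle hmod with h | h | h | h | h | ⟨d, hd, hdvd, hdlt⟩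
  · exact hsp (Or.inl h)
  · exact hsp (Or.inr (Or.inl h))
  · exact hsp (Or.inr (Or.inr (Or.inl h)))
  · exact hsp (Or.inr (Or.inr (Or.inr (Or.inl h))))
  · exact hsp (Or.inr (Or.inr (Or.inr (Or.inr h))))
  · rcases (Nat.dvd_prime hprime).mp hdvd with h1 | h1
    · have := (Finset.mem_Icc.mp hd).1
      omega
    · omega

noncomputable def zt : 𝓞 K := (zeta_spec 13 ℚ K).toInteger

theorem zt_sum : 1 + zt K + zt K ^ 2 + zt K ^ 3 + zt K ^ 4 + zt K ^ 5 + zt K ^ 6 + zt K ^ 7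
    + zt K ^ 8 + zt K ^ 9 + zt K ^ 10 + zt K ^ 11 + zt K ^ 12 = 0 := by
  have : Fact (Nat.Prime 13) := ⟨by norm_num⟩
  have h := (zeta_spec 13 ℚ K).toInteger_isPrimitiveRoot.isRoot_cyclotomic (by norm_num)
  rw [cyclotomic_prime, IsRoot.def] at h
  simpa [Finset.sum_range_succ, eval_finsetSum, zt] using h

theorem minpoly_zt : minpoly ℤ (zt K) = cyclotomic 13 ℤ := by
  rw [cyclotomic_eq_minpoly (zeta_spec 13 ℚ K) (by norm_num), ← (zeta_spec 13 ℚ K).coe_toInteger,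
    ← RingOfIntegers.minpoly_coe]
  rfl

theorem principal_of_cert (q : ℕ) [Fact q.Prime] (Q : ℤ[X])
    (hirr : Irreducible (Q.map (Int.castRingHom (ZMod q))))
    (hmonic : (Q.map (Int.castRingHom (ZMod q))).Monic)
    (hdvd : Q.map (Int.castRingHom (ZMod q)) ∣ cyclotomic 13 (ZMod q))
    (α β γ A B : 𝓞 K) (h1 : α * β = q) (h2 : α * γ = aeval (zt K) Q)
    (h3 : α = q * A + aeval (zt K) Q * B) :
    ∃ P ∈ primesOver (span {(q : ℤ)}) (𝓞 K), Submodule.IsPrincipal P := by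
  have h₁ : ¬ q ∣ exponent (zt K) := by
    rw [zt, exponent_eq_one_iff.mpr <| adjoin_singleton_eq_top (zeta_spec 13 ℚ K)]
    exact (Fact.out : q.Prime).not_dvd_one
  have hQ : Q.map (Int.castRingHom (ZMod q)) ∈ monicFactorsMod (zt K) q := by
    rw [Multiset.mem_toFinset, Polynomial.mem_normalizedFactors_iff
      (map_monic_ne_zero (minpoly.monic (zt K).isIntegral))]
    refine ⟨hirr, hmonic, ?_⟩
    rw [minpoly_zt, map_cyclotomic_int]
    exact hdvd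
  have hP := ((primesOverSpanEquivMonicFactorsMod h₁).symm ⟨_, hQ⟩).prop
  rw [primesOverSpanEquivMonicFactorsMod_symm_apply_eq_span h₁ hQ] at hP
  refine ⟨_, hP, ?_⟩
  have heq : span {(q : 𝓞 K), aeval (zt K) Q} = span {α} := by
    apply le_antisymm
    · rw [span_le]
      intro x hx
      rcases hx with rfl | rfl
      · exact mem_span_singleton.mpr ⟨β, h1.symm⟩
      · exact mem_span_singleton.mpr ⟨γ, h2.symm⟩
    · rw [span_le, Set.singleton_subset_iff, SetLike.mem_coe, mem_span_pair]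
      exact ⟨A, B, by rw [h3]; ring⟩
  rw [heq]
  exact ⟨⟨α, rfl⟩⟩

theorem principal_linear (q : ℕ) [Fact q.Prime] (t : ℤ)
    (ht : ∑ i ∈ Finset.range 13, (t : ZMod q) ^ i = 0)
    (α β γ A B : 𝓞 K) (h1 : α * β = q) (h2 : α * γ = zt K - t)
    (h3 : α = q * A + (zt K - t) * B) :
    ∃ P ∈ primesOver (span {(q : ℤ)}) (𝓞 K), Submodule.IsPrincipal P := by
  have : Fact (Nat.Prime 13) := ⟨by norm_num⟩
  have hmap : (X - C t : ℤ[X]).map (Int.castRingHom (ZMod q)) = X - C (t : ZMod q) := by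
    simp
  have hae : aeval (zt K) (X - C t : ℤ[X]) = zt K - t := by
    simp
  apply principal_of_cert K q (X - C t) ?_ ?_ ?_ α β γ A B h1 (by rw [hae]; exact h2)
    (by rw [hae]; exact h3)
  · rw [hmap]; exact irreducible_X_sub_C _
  · rw [hmap]; exact monic_X_sub_C _
  · rw [hmap, dvd_iff_isRoot, cyclotomic_prime, IsRoot.def, eval_finsetSum]
    simpa using ht

theorem three_eq_zero : (3 : (ZMod 3)[X]) = 0 := by
  have : ((3 : ℕ) : (ZMod 3)[X]) = 0 := CharP.cast_eq_zero _ 3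
  exact_mod_cast this

theorem cubic_irreducible : Irreducible (X ^ 3 - X - 1 : (ZMod 3)[X]) := by
  have hdeg : (X ^ 3 - X - 1 : (ZMod 3)[X]).natDegree = 3 := by
    compute_degree!
  apply irreducible_of_degree_le_three_of_not_isRoot
  · rw [hdeg]; decide
  · intro x
    simp only [IsRoot.def, eval_sub, eval_pow, eval_X, eval_one]
    revert x
    decide

theorem cubic_monic : (X ^ 3 - X - 1 : (ZMod 3)[X]).Monic := by
  monicity!

theorem cubic_dvd : (X ^ 3 - X - 1 : (ZMod 3)[X]) ∣ cyclotomic 13 (ZMod 3) := by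
  have : Fact (Nat.Prime 13) := ⟨by norm_num⟩
  refine ⟨20 + 15 * X + 11 * X ^ 2 + 8 * X ^ 3 + 6 * X ^ 4 + 4 * X ^ 5 + 3 * X ^ 6 + 2 * X ^ 7
    + X ^ 8 + X ^ 9, ?_⟩
  rw [cyclotomic_prime]
  simp only [Finset.sum_range_succ, Finset.sum_range_zero]
  linear_combination (7 + 12 * X + 9 * X ^ 2) * three_eq_zero

theorem prime3 : ∃ P ∈ primesOver (span {((3 : ℕ) : ℤ)}) (𝓞 K), Submodule.IsPrincipal P := by
  have : Fact (Nat.Prime 3) := ⟨by norm_num⟩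
  have h := zt_sum K
  have hmap : (X ^ 3 - X - 1 : ℤ[X]).map (Int.castRingHom (ZMod 3)) = X ^ 3 - X - 1 := by
    simp
  have hae : aeval (zt K) (X ^ 3 - X - 1 : ℤ[X]) = zt K ^ 3 - zt K - 1 := by
    simp
  set θ := zt K with hθ
  refine principal_of_cert K 3 (X ^ 3 - X - 1) (by rw [hmap]; exact cubic_irreducible)
    (by rw [hmap]; exact cubic_monic) (by rw [hmap]; exact cubic_dvd)
    (θ ^ 3 - θ - 1)
    (1 + 1 * θ ^ 2 + 1 * θ ^ 3 + 2 * θ ^ 5 + 1 * θ ^ 7 + 2 * θ ^ 8 + (-1) * θ ^ 9 + 3 * θ ^ 10)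
    1 0 1 ?_ ?_ ?_
  · push_cast
    linear_combination ((-4) + 3 * θ) * h
  · rw [hae]; ring
  · rw [hae]; ring

theorem root53 : ∑ i ∈ Finset.range 13, (((-17) : ℤ) : ZMod 53) ^ i = 0 := by decide

theorem prime53 : ∃ P ∈ primesOver (span {((53 : ℕ) : ℤ)}) (𝓞 K), Submodule.IsPrincipal P := by
  have : Fact (Nat.Prime 53) := ⟨by norm_num⟩
  have h := zt_sum K
  set θ := zt K with hθ
  refine principal_linear K 53 (-17) root53
    (1 + 1 * θ + 1 * θ ^ 3)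
    (1 + (-24) * θ + (-35) * θ ^ 2 + (-25) * θ ^ 3 + (-10) * θ ^ 4 + (-14) * θ ^ 5 + (-20) * θ ^ 6 + (-29) * θ ^ 7 + (-16) * θ ^ 8 + (-23) * θ ^ 9 + (-7) * θ ^ 10 + (-36) * θ ^ 11)
    (1 + (-7) * θ + (-11) * θ ^ 2 + (-8) * θ ^ 3 + (-3) * θ ^ 4 + (-4) * θ ^ 5 + (-6) * θ ^ 6 + (-9) * θ ^ 7 + (-5) * θ ^ 8 + (-7) * θ ^ 9 + (-2) * θ ^ 10 + (-11) * θ ^ 11)
    (-93) (290 + (-17) * θ + 1 * θ ^ 2) ?_ ?_ ?_
  · push_cast
    linear_combination ((-52) + 29 * θ + (-36) * θ ^ 2) * h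
  · push_cast
    linear_combination ((-16) + 9 * θ + (-11) * θ ^ 2) * h
  · push_cast
    ring

theorem root79 : ∑ i ∈ Finset.range 13, (((-15) : ℤ) : ZMod 79) ^ i = 0 := by decide

theorem prime79 : ∃ P ∈ primesOver (span {((79 : ℕ) : ℤ)}) (𝓞 K), Submodule.IsPrincipal P := by
  have : Fact (Nat.Prime 79) := ⟨by norm_num⟩
  have h := zt_sum K
  set θ := zt K with hθ
  refine principal_linear K 79 (-15) root79
    (1 + 1 * θ + (-1) * θ ^ 4)
    (24 + (-25) * θ + (-27) * θ ^ 2 + 10 * θ ^ 3 + (-3) * θ ^ 4 + (-39) * θ ^ 5 + (-5) * θ ^ 6 + (-2) * θ ^ 7 + (-18) * θ ^ 8 + (-38) * θ ^ 9 + 16 * θ ^ 10 + (-35) * θ ^ 11)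
    (5 + (-4) * θ + (-5) * θ ^ 2 + 2 * θ ^ 3 + (-7) * θ ^ 5 + (-1) * θ ^ 6 + (-3) * θ ^ 8 + (-7) * θ ^ 9 + 3 * θ ^ 10 + (-6) * θ ^ 11)
    (-641) (3376 + (-225) * θ + 15 * θ ^ 2 + (-1) * θ ^ 3) ?_ ?_ ?_
  · push_cast
    linear_combination ((-55) + 54 * θ + (-51) * θ ^ 2 + 35 * θ ^ 3) * h
  · push_cast
    linear_combination ((-10) + 10 * θ + (-9) * θ ^ 2 + 6 * θ ^ 3) * h
  · push_cast
    ring

theorem root131 : ∑ i ∈ Finset.range 13, (((-51) : ℤ) : ZMod 131) ^ i = 0 := by decide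

theorem prime131 : ∃ P ∈ primesOver (span {((131 : ℕ) : ℤ)}) (𝓞 K), Submodule.IsPrincipal P := by
  have : Fact (Nat.Prime 131) := ⟨by norm_num⟩
  have h := zt_sum K
  set θ := zt K with hθ
  refine principal_linear K 131 (-51) root131
    (1 + (-1) * θ + (-1) * θ ^ 3)
    (111 + 78 * θ + 17 * θ ^ 2 + 67 * θ ^ 3 + 84 * θ ^ 4 + 40 * θ ^ 5 + 46 * θ ^ 6 + 69 * θ ^ 7 + 48 * θ ^ 8 + 33 * θ ^ 9 + 41 * θ ^ 10 + 28 * θ ^ 11)
    (43 + 31 * θ + 7 * θ ^ 2 + 26 * θ ^ 3 + 33 * θ ^ 4 + 16 * θ ^ 5 + 18 * θ ^ 6 + 27 * θ ^ 7 + 19 * θ ^ 8 + 13 * θ ^ 9 + 16 * θ ^ 10 + 11 * θ ^ 11)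
    (1013) ((-2602) + 51 * θ + (-1) * θ ^ 2) ?_ ?_ ?_
  · push_cast
    linear_combination ((-20) + (-13) * θ + (-28) * θ ^ 2) * h
  · push_cast
    linear_combination ((-8) + (-5) * θ + (-11) * θ ^ 2) * h
  · push_cast
    ring

theorem root157 : ∑ i ∈ Finset.range 13, ((75 : ℤ) : ZMod 157) ^ i = 0 := by decide

theorem prime157 : ∃ P ∈ primesOver (span {((157 : ℕ) : ℤ)}) (𝓞 K), Submodule.IsPrincipal P := by
  have : Fact (Nat.Prime 157) := ⟨by norm_num⟩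
  have h := zt_sum K
  set θ := zt K with hθ
  refine principal_linear K 157 75 root157
    (1 + (-1) * θ + 1 * θ ^ 2 + 1 * θ ^ 4)
    (89 + 86 * θ + 42 * θ ^ 2 + 77 * θ ^ 3 + 67 * θ ^ 4 + 25 * θ ^ 5 + 37 * θ ^ 6 + 56 * θ ^ 7 + 73 * θ ^ 8 + 113 * θ ^ 9 + 124 * θ ^ 10 + 76 * θ ^ 11)
    ((-43) + (-41) * θ + (-20) * θ ^ 2 + (-37) * θ ^ 3 + (-32) * θ ^ 4 + (-12) * θ ^ 5 + (-18) * θ ^ 6 + (-27) * θ ^ 7 + (-35) * θ ^ 8 + (-54) * θ ^ 9 + (-59) * θ ^ 10 + (-36) * θ ^ 11)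
    (201568) (421949 + 5626 * θ + 75 * θ ^ 2 + 1 * θ ^ 3) ?_ ?_ ?_
  · push_cast
    linear_combination ((-68) + 65 * θ + 48 * θ ^ 2 + 76 * θ ^ 3) * h
  · push_cast
    linear_combination (32 + (-31) * θ + (-23) * θ ^ 2 + (-36) * θ ^ 3) * h
  · push_cast
    ring

theorem special_prime (p : ℕ) (hsp : p = 3 ∨ p = 53 ∨ p = 79 ∨ p = 131 ∨ p = 157) :
    ∃ P ∈ primesOver (span {(p : ℤ)}) (𝓞 K), Submodule.IsPrincipal P := by
  rcases hsp with rfl | rfl | rfl | rfl | rfl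
  · exact prime3 K
  · exact prime53 K
  · exact prime79 K
  · exact prime131 K
  · exact prime157 K

end Fermat.Agent.Kummer.PID13

namespace Fermat.Agent.Kummer

open NumberField Ideal IsCyclotomicExtension IsCyclotomicExtension.Rat in
theorem pid_thirteen (K : Type*) [Field K] [NumberField K] [IsCyclotomicExtension {13} ℚ K] :
    IsPrincipalIdealRing (𝓞 K) := by
  have : IsGalois ℚ K := IsCyclotomicExtension.isGalois {13} ℚ K
  have : Fact (Nat.Prime 13) := ⟨by norm_num⟩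
  apply RingOfIntegers.isPrincipalIdealRing_of_isPrincipal_of_lt_or_isPrincipal_of_mem_primesOver_of_mem_Icc
  intro p hp hprime
  have hB := PID13.minkowski_floor_le K
  have hp306 : p ≤ 306 := (Finset.mem_Icc.mp hp).2.trans hB
  by_cases h13 : p = 13
  · subst h13
    have hζ := IsCyclotomicExtension.zeta_spec 13 ℚ K
    refine ⟨span {hζ.toInteger - 1}, ⟨isPrime_span_zeta_sub_one' 13 hζ, ?_⟩, Or.inr ⟨⟨_, rfl⟩⟩⟩
    have h1 : IsCyclotomicExtension {13 ^ (0 + 1)} ℚ K := by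
      rw [zero_add, pow_one]; infer_instance
    have hζ' : IsPrimitiveRoot (IsCyclotomicExtension.zeta 13 ℚ K) (13 ^ (0 + 1)) := by
      rw [zero_add, pow_one]; exact hζ
    exact liesOver_span_zeta_sub_one 13 0 hζ'
  by_cases hsp : p = 3 ∨ p = 53 ∨ p = 79 ∨ p = 131 ∨ p = 157
  · obtain ⟨P, hP, hprin⟩ := PID13.special_prime K p hsp
    exact ⟨P, hP, Or.inr hprin⟩
  · have : Fact p.Prime := ⟨hprime⟩
    obtain ⟨⟨P, hP1, hP2⟩⟩ := (span {(p : ℤ)}).nonempty_primesOver (S := 𝓞 K)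
    refine ⟨P, ⟨hP1, hP2⟩, Or.inl ?_⟩
    have hnd : ¬ p ∣ 13 := by
      intro hdvd
      exact h13 ((Nat.prime_dvd_prime_iff_eq hprime (by norm_num)).mp hdvd)
    rw [inertiaDeg_eq_of_not_dvd p K P hnd]
    exact lt_of_le_of_lt hB (PID13.generic_prime p hprime hp306 h13 hsp)

end Fermat.Agent.Kummer
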