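import Mathlib

namespace Fermat.Agent.Kummer

open NumberField Polynomial InfinitePlace Nat Real Ideal Module IsCyclotomicExtension.Rat

namespace PID7

theorem minkowski_lt (K : Type*) [Field K] [NumberField K] [IsCyclotomicExtension {7} ℚ K] :
    (4 / π) ^ nrComplexPlaces K *
      ((finrank ℚ K)! / (finrank ℚ K) ^ (finrank ℚ K) * √|(discr K : ℝ)|) < 8 := by
  have : Fact (Nat.Prime 7) := ⟨by norm_num⟩
  rw [discr_prime 7 K, IsCyclotomicExtension.finrank (n := 7) K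
    (Polynomial.cyclotomic.irreducible_rat (by simp)), nrComplexPlaces_eq_totient_div_two 7,
    totient_prime (by norm_num)]
  have h6 : (6 : ℕ)! = 720 := by decide
  have hpi : (3 : ℝ) < π := pi_gt_three
  have hsq : √|(((-1 : ℤ) ^ ((7 - 1) / 2) * ((7 : ℕ) : ℤ) ^ (7 - 2) : ℤ) : ℝ)| < 130 := by
    rw [Real.sqrt_lt' (by norm_num)]
    norm_num
  have h4 : (4 / π) ^ 3 < (4 / 3 : ℝ) ^ 3 := by
    gcongr
  have hpos : (0 : ℝ) < (4 / π) ^ 3 := by positivity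
  have hsq0 : 0 ≤ √|(((-1 : ℤ) ^ ((7 - 1) / 2) * ((7 : ℕ) : ℤ) ^ (7 - 2) : ℤ) : ℝ)| :=
    Real.sqrt_nonneg _
  simp only [show (7 - 1) / 2 = 3 by norm_num, show 7 - 1 = 6 by norm_num, h6] at *
  calc (4 / π) ^ 3 * ((720 : ℕ) / ((6 : ℕ) : ℝ) ^ 6 * √|(((-1 : ℤ) ^ 3 * ((7 : ℕ) : ℤ) ^ (7 - 2) : ℤ) : ℝ)|)
      ≤ (4 / 3 : ℝ) ^ 3 * ((720 : ℕ) / ((6 : ℕ) : ℝ) ^ 6 * 130) := by
        gcongr
    _ < 8 := by norm_num

theorem orderOf_ge_two {p : ℕ} (hp : (p : ZMod 7) ≠ 1) (h0 : orderOf (p : ZMod 7) ≠ 0) :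
    2 ≤ orderOf (p : ZMod 7) := by
  rcases Nat.lt_or_ge (orderOf (p : ZMod 7)) 2 with h | h
  · interval_cases hk : orderOf (p : ZMod 7)
    · exact absurd rfl h0
    · exact absurd (orderOf_eq_one_iff.mp hk) hp
  · exact h

theorem two_pow_two_ne : ((2 : ℕ) : ZMod 7) ^ 2 ≠ 1 := by decide

theorem three_le_orderOf_two (hpos : orderOf ((2 : ℕ) : ZMod 7) ≠ 0) :
    3 ≤ orderOf ((2 : ℕ) : ZMod 7) := by
  by_contra hlt
  have h2 := orderOf_ge_two (p := 2) (by decide) hpos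
  have h22 : orderOf ((2 : ℕ) : ZMod 7) = 2 := by omega
  have hpow := pow_orderOf_eq_one ((2 : ℕ) : ZMod 7)
  rw [h22] at hpow
  exact two_pow_two_ne hpow

end PID7

theorem pid_seven (K : Type*) [Field K] [NumberField K] [IsCyclotomicExtension {7} ℚ K] :
    IsPrincipalIdealRing (𝓞 K) := by
  have hp7 : Fact (Nat.Prime 7) := ⟨by norm_num⟩
  have hM := PID7.minkowski_lt K
  have h8 : ((8 : ℕ) : ℝ) = 8 := by norm_num
  rw [← h8] at hM
  have hfl := (Nat.floor_lt' (by norm_num : (8 : ℕ) ≠ 0)).mpr hM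
  apply RingOfIntegers.isPrincipalIdealRing_of_isPrincipal_of_pow_le_of_mem_primesOver_of_mem_Icc
  intro p hp hprime P hP hle
  have hp7' : p ≤ 7 := by
    have := (Finset.mem_Icc.mp hp).2
    omega
  have hle7 : p ^ P.inertiaDeg ℤ ≤ 7 := by omega
  have : Fact p.Prime := ⟨hprime⟩
  have : P.IsPrime := hP.1
  have : P.LiesOver (span {(p : ℤ)}) := hP.2
  by_cases h7 : p = 7
  · subst h7
    rw [eq_span_zeta_sub_one_of_liesOver' 7 K (IsCyclotomicExtension.zeta_spec 7 ℚ K) P]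
    exact ⟨⟨_, rfl⟩⟩
  · exfalso
    have hnd : ¬ p ∣ 7 := by
      intro hd
      exact h7 ((Nat.prime_dvd_prime_iff_eq hprime (by norm_num)).mp hd)
    have hdeg := inertiaDeg_eq_of_not_dvd (m := 7) p K P hnd
    have hpos : orderOf (p : ZMod 7) ≠ 0 := by
      rw [← hdeg]
      exact (Ideal.inertiaDeg_pos P ℤ).ne'
    rw [hdeg] at hle7
    have hp2 := hprime.two_le
    interval_cases p
    · -- p = 2
      have h3 : 3 ≤ orderOf ((2 : ℕ) : ZMod 7) := PID7.three_le_orderOf_two hpos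
      have : 2 ^ 3 ≤ 2 ^ orderOf ((2 : ℕ) : ZMod 7) := Nat.pow_le_pow_right (by norm_num) h3
      omega
    · have h2 := PID7.orderOf_ge_two (p := 3) (by decide) hpos
      have : 3 ^ 2 ≤ 3 ^ orderOf ((3 : ℕ) : ZMod 7) := Nat.pow_le_pow_right (by norm_num) h2
      omega
    · exact absurd hprime (by norm_num)
    · have h2 := PID7.orderOf_ge_two (p := 5) (by decide) hpos
      have : 5 ^ 2 ≤ 5 ^ orderOf ((5 : ℕ) : ZMod 7) := Nat.pow_le_pow_right (by norm_num) h2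
      omega
    · exact absurd hprime (by norm_num)
    · exact absurd rfl h7

end Fermat.Agent.Kummer
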