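import Mathlib

set_option autoImplicit false

namespace Fermat.Agent.Kummer

namespace SG

open Finset

/-- The cofactor of `y + z` in `y ^ p + z ^ p` (for odd `p`). -/
def phi (p : ℕ) (y z : ℤ) : ℤ := ∑ i ∈ range p, y ^ i * (-z) ^ (p - 1 - i)

lemma add_mul_phi {p : ℕ} (hp : Odd p) (y z : ℤ) : (y + z) * phi p y z = y ^ p + z ^ p := by
  have h := (Commute.all y (-z)).mul_geom_sum₂ p
  rw [hp.neg_pow] at h
  unfold phi
  linear_combination h

lemma phi_modEq {p : ℕ} (y z : ℤ) : phi p y z ≡ (p : ℤ) * y ^ (p - 1) [ZMOD (y + z)] := by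
  have h1 : (-z) ≡ y [ZMOD (y + z)] := by
    rw [Int.modEq_iff_dvd]
    exact ⟨1, by ring⟩
  have h2 : phi p y z ≡ ∑ i ∈ range p, y ^ i * y ^ (p - 1 - i) [ZMOD (y + z)] := by
    unfold phi
    apply Int.ModEq.sum
    intro i _
    exact (Int.ModEq.refl _).mul (h1.pow _)
  rw [geom_sum₂_self] at h2
  exact h2

/-- Key factorisation step. -/
lemma exists_pow {p : ℕ} (hp : p.Prime) (hodd : Odd p) {x y z : ℤ}
    (hyz : IsCoprime y z) (hpx : ¬ (p : ℤ) ∣ x) (h : x ^ p + y ^ p + z ^ p = 0) :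
    (∃ A : ℤ, y + z = A ^ p) ∧ ∃ T : ℤ, phi p y z = T ^ p := by
  have hmul : (y + z) * phi p y z = (-x) ^ p := by
    rw [add_mul_phi hodd, hodd.neg_pow]
    linear_combination h
  have hpZ : Prime (p : ℤ) := Nat.prime_iff_prime_int.mp hp
  have hnd : ¬ (p : ℤ) ∣ y + z := by
    intro hd
    have : (p : ℤ) ∣ (-x) ^ p := hmul ▸ Dvd.dvd.mul_right hd _
    have := hpZ.dvd_of_dvd_pow this
    exact hpx ((dvd_neg).mp this)
  have hc1 : IsCoprime (y + z) (p : ℤ) :=
    (hpZ.irreducible.coprime_iff_not_dvd.mpr hnd).symm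
  have hc2 : IsCoprime (y + z) y := by
    have : IsCoprime (z + 1 * y) y := hyz.symm.add_mul_right_left 1
    simpa [add_comm] using this
  have hc3 : IsCoprime (y + z) ((p : ℤ) * y ^ (p - 1)) := hc1.mul_right hc2.pow_right
  have hcop : IsCoprime (y + z) (phi p y z) := by
    obtain ⟨m, hm⟩ := (Int.modEq_iff_dvd.mp (phi_modEq (p := p) y z))
    have hphi : phi p y z = (p : ℤ) * y ^ (p - 1) + (y + z) * (-m) := by linear_combination -hm
    rw [hphi]
    exact hc3.add_mul_left_right (-m)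
  exact Int.eq_pow_of_mul_eq_pow_odd hcop hodd hmul

lemma not_both_zero {q : ℕ} [Fact q.Prime] {u v : ℤ} (huv : IsCoprime u v)
    (hu : (u : ZMod q) = 0) (hv : (v : ZMod q) = 0) : False := by
  obtain ⟨s, t, hst⟩ := huv
  have h1 : ((s * u + t * v : ℤ) : ZMod q) = 1 := by rw [hst]; simp
  push_cast at h1
  rw [hu, hv] at h1
  simp at h1

/-- Core of Sophie Germain's argument: the auxiliary prime `q` cannot divide `x`. -/
lemma core {p q : ℕ} (hp : p.Prime) (hodd : Odd p) [Fact q.Prime]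
    (h1 : ∀ u v w : ZMod q, u ^ p + v ^ p + w ^ p = 0 → u * v * w = 0)
    (h2 : ∀ t : ZMod q, t ^ p ≠ (p : ZMod q))
    {x y z : ℤ} (hxy : IsCoprime x y) (hyz : IsCoprime y z) (hzx : IsCoprime z x)
    (hpx : ¬ (p : ℤ) ∣ x) (hpy : ¬ (p : ℤ) ∣ y) (hpz : ¬ (p : ℤ) ∣ z)
    (h : x ^ p + y ^ p + z ^ p = 0) (hqx : (x : ZMod q) = 0) : False := by
  obtain ⟨⟨A, hA⟩, ⟨T, hT⟩⟩ := exists_pow hp hodd hyz hpx h
  obtain ⟨⟨B, hB⟩, -⟩ := exists_pow hp hodd hzx hpy (x := y) (y := z) (z := x)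
    (by linear_combination h)
  obtain ⟨⟨C, hC⟩, ⟨V, hV⟩⟩ := exists_pow hp hodd hxy hpz (x := z) (y := x) (z := y)
    (by linear_combination h)
  have hA' : (y : ZMod q) + z = (A : ZMod q) ^ p := by exact_mod_cast congrArg (Int.cast : ℤ → ZMod q) hA
  have hB' : (z : ZMod q) + x = (B : ZMod q) ^ p := by exact_mod_cast congrArg (Int.cast : ℤ → ZMod q) hB
  have hC' : (x : ZMod q) + y = (C : ZMod q) ^ p := by exact_mod_cast congrArg (Int.cast : ℤ → ZMod q) hC
  have hsum : (C : ZMod q) ^ p + (B : ZMod q) ^ p + (-(A : ZMod q)) ^ p = 0 := by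
    rw [hodd.neg_pow, ← hA', ← hB', ← hC', hqx]
    ring
  have hy0 : (y : ZMod q) ≠ 0 := fun hy => not_both_zero hxy hqx hy
  have hz0 : (z : ZMod q) ≠ 0 := fun hz => not_both_zero hzx hz hqx
  have hprod := h1 _ _ _ hsum
  have hAz : (A : ZMod q) = 0 := by
    rcases mul_eq_zero.mp hprod with h3 | h3
    · rcases mul_eq_zero.mp h3 with h4 | h4
      · exfalso
        rw [h4, zero_pow hp.ne_zero, hqx, zero_add] at hC'
        exact hy0 hC'
      · exfalso
        rw [h4, zero_pow hp.ne_zero, hqx, add_zero] at hB'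
        exact hz0 hB'
    · exact neg_eq_zero.mp h3
  have hzy : (z : ZMod q) = -y := by
    rw [hAz, zero_pow hp.ne_zero] at hA'
    linear_combination hA'
  have hT' : (T : ZMod q) ^ p = (p : ZMod q) * (y : ZMod q) ^ (p - 1) := by
    have := congrArg (Int.cast : ℤ → ZMod q) hT
    rw [phi] at this
    push_cast at this
    rw [← this, hzy, neg_neg, geom_sum₂_self]
  have hV' : (V : ZMod q) ^ p = (y : ZMod q) ^ (p - 1) := by
    have := congrArg (Int.cast : ℤ → ZMod q) hV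
    rw [phi] at this
    push_cast at this
    rw [← this, hqx]
    have hp1 : Even (p - 1) := hp.even_sub_one (fun h2 => by subst h2; exact absurd hodd (by decide))
    rw [Finset.sum_eq_single 0]
    · simp [hp1.neg_pow]
    · intro i _ hi
      simp [hi]
    · intro h0
      exact absurd (Finset.mem_range.mpr hp.pos) h0
  have hV0 : (V : ZMod q) ≠ 0 := by
    intro hv
    rw [hv, zero_pow hp.ne_zero] at hV'
    exact pow_ne_zero _ hy0 hV'.symm
  apply h2 ((T : ZMod q) / V)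
  rw [div_pow, hT', hV']
  field_simp

/-- Sophie Germain's theorem (first case), symmetric form. -/
theorem sophie_germain_sym {p q : ℕ} (hp : p.Prime) (hodd : Odd p) [Fact q.Prime]
    (h1 : ∀ u v w : ZMod q, u ^ p + v ^ p + w ^ p = 0 → u * v * w = 0)
    (h2 : ∀ t : ZMod q, t ^ p ≠ (p : ZMod q))
    {x y z : ℤ} (hxy : IsCoprime x y) (hyz : IsCoprime y z) (hzx : IsCoprime z x)
    (hpx : ¬ (p : ℤ) ∣ x) (hpy : ¬ (p : ℤ) ∣ y) (hpz : ¬ (p : ℤ) ∣ z)
    (h : x ^ p + y ^ p + z ^ p = 0) : False := by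
  have hq : (x : ZMod q) ^ p + (y : ZMod q) ^ p + (z : ZMod q) ^ p = 0 := by
    exact_mod_cast congrArg (Int.cast : ℤ → ZMod q) h
  rcases mul_eq_zero.mp (h1 _ _ _ hq) with h3 | h3
  · rcases mul_eq_zero.mp h3 with h4 | h4
    · exact core hp hodd h1 h2 hxy hyz hzx hpx hpy hpz h h4
    · exact core hp hodd h1 h2 hyz hzx hxy hpy hpz hpx (by linear_combination h) h4
  · exact core hp hodd h1 h2 hzx hxy hyz hpz hpx hpy (by linear_combination h) h3

/-- Sophie Germain's theorem (first case) in the form `a ^ p + b ^ p = c ^ p`. -/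
theorem sophie_germain {p q : ℕ} (hp : p.Prime) (hodd : Odd p) [Fact q.Prime]
    (h1 : ∀ u v w : ZMod q, u ^ p + v ^ p + w ^ p = 0 → u * v * w = 0)
    (h2 : ∀ t : ZMod q, t ^ p ≠ (p : ZMod q))
    {a b c : ℤ} (hgcd : IsCoprime a b) (hpabc : ¬ (p : ℤ) ∣ a * b * c)
    (h : a ^ p + b ^ p = c ^ p) : False := by
  have hpa : ¬ (p : ℤ) ∣ a := fun hd => hpabc (Dvd.dvd.mul_right (Dvd.dvd.mul_right hd b) c)
  have hpb : ¬ (p : ℤ) ∣ b := fun hd => hpabc (Dvd.dvd.mul_right (Dvd.dvd.mul_left hd a) c)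
  have hpc : ¬ (p : ℤ) ∣ -c := fun hd => hpabc (Dvd.dvd.mul_left ((dvd_neg).mp hd) (a * b))
  have hac : IsCoprime a c := by
    have : IsCoprime a (c ^ p) := by
      rw [← h]
      have : IsCoprime a (b ^ p + a ^ (p - 1) * a) := hgcd.pow_right.add_mul_right_right _
      rwa [← pow_succ, Nat.sub_add_cancel hp.one_le, add_comm] at this
    exact (IsCoprime.pow_right_iff hp.pos).mp this
  have hbc : IsCoprime b c := by
    have : IsCoprime b (c ^ p) := by
      rw [← h]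
      have : IsCoprime b (a ^ p + b ^ (p - 1) * b) := hgcd.symm.pow_right.add_mul_right_right _
      rwa [← pow_succ, Nat.sub_add_cancel hp.one_le] at this
    exact (IsCoprime.pow_right_iff hp.pos).mp this
  refine sophie_germain_sym hp hodd h1 h2 hgcd hbc.neg_right hac.symm.neg_left hpa hpb hpc ?_
  rw [hodd.neg_pow]
  linear_combination h

lemma h1_of_values {q p : ℕ} [Fact q.Prime] (hp : p ≠ 0) (S : Finset (ZMod q))
    (hS : ∀ t : ZMod q, t ^ p ∈ S)
    (hsum : ∀ a ∈ S, ∀ b ∈ S, ∀ c ∈ S, a + b + c = 0 → a * b * c = 0) :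
    ∀ u v w : ZMod q, u ^ p + v ^ p + w ^ p = 0 → u * v * w = 0 := by
  intro u v w h
  have h3 := hsum _ (hS u) _ (hS v) _ (hS w) h
  rw [← mul_pow, ← mul_pow] at h3
  exact (pow_eq_zero_iff hp).mp h3

lemma pow5 : ∀ t : ZMod 11, t ^ 5 ∈ ({0, 1, -1} : Finset (ZMod 11)) := by decide
lemma sum5 : ∀ a ∈ ({0, 1, -1} : Finset (ZMod 11)), ∀ b ∈ ({0, 1, -1} : Finset (ZMod 11)),
    ∀ c ∈ ({0, 1, -1} : Finset (ZMod 11)), a + b + c = 0 → a * b * c = 0 := by decide
lemma ne5 : ∀ t : ZMod 11, t ^ 5 ≠ (5 : ZMod 11) := by decide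

lemma pow7 : ∀ t : ZMod 29, t ^ 7 ∈ ({0, 1, -1, 12, -12} : Finset (ZMod 29)) := by decide
lemma sum7 : ∀ a ∈ ({0, 1, -1, 12, -12} : Finset (ZMod 29)),
    ∀ b ∈ ({0, 1, -1, 12, -12} : Finset (ZMod 29)),
    ∀ c ∈ ({0, 1, -1, 12, -12} : Finset (ZMod 29)), a + b + c = 0 → a * b * c = 0 := by decide
lemma ne7 : ∀ t : ZMod 29, t ^ 7 ≠ (7 : ZMod 29) := by decide

lemma pow11 : ∀ t : ZMod 23, t ^ 11 ∈ ({0, 1, -1} : Finset (ZMod 23)) := by decide
lemma sum11 : ∀ a ∈ ({0, 1, -1} : Finset (ZMod 23)), ∀ b ∈ ({0, 1, -1} : Finset (ZMod 23)),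
    ∀ c ∈ ({0, 1, -1} : Finset (ZMod 23)), a + b + c = 0 → a * b * c = 0 := by decide
lemma ne11 : ∀ t : ZMod 23, t ^ 11 ≠ (11 : ZMod 23) := by decide

lemma pow13 : ∀ t : ZMod 53, t ^ 13 ∈ ({0, 1, -1, 23, -23} : Finset (ZMod 53)) := by decide
set_option maxRecDepth 100000 in
lemma sum13 : ∀ a ∈ ({0, 1, -1, 23, -23} : Finset (ZMod 53)),
    ∀ b ∈ ({0, 1, -1, 23, -23} : Finset (ZMod 53)),
    ∀ c ∈ ({0, 1, -1, 23, -23} : Finset (ZMod 53)), a + b + c = 0 → a * b * c = 0 := by decide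
lemma ne13 : ∀ t : ZMod 53, t ^ 13 ≠ (13 : ZMod 53) := by decide

end SG

/-- First case of Fermat's Last Theorem for the exponents `5, 7, 11, 13`, by Sophie Germain's
criterion with the auxiliary primes `11, 29, 23, 53`. Elementary, over `ℤ`. -/
theorem caseI_SG {p : ℕ} (hp : p = 5 ∨ p = 7 ∨ p = 11 ∨ p = 13) {a b c : ℤ}
    (hgcd : IsCoprime a b) (hpabc : ¬ (p : ℤ) ∣ a * b * c) (h : a ^ p + b ^ p = c ^ p) :
    False := by
  rcases hp with rfl | rfl | rfl | rfl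
  · have : Fact (Nat.Prime 11) := ⟨by norm_num⟩
    exact SG.sophie_germain (q := 11) (by norm_num) (by decide)
      (SG.h1_of_values (by norm_num) _ SG.pow5 SG.sum5)
      (fun t => by rw [Nat.cast_ofNat]; exact SG.ne5 t) hgcd hpabc h
  · have : Fact (Nat.Prime 29) := ⟨by norm_num⟩
    exact SG.sophie_germain (q := 29) (by norm_num) (by decide)
      (SG.h1_of_values (by norm_num) _ SG.pow7 SG.sum7)
      (fun t => by rw [Nat.cast_ofNat]; exact SG.ne7 t) hgcd hpabc h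
  · have : Fact (Nat.Prime 23) := ⟨by norm_num⟩
    exact SG.sophie_germain (q := 23) (by norm_num) (by decide)
      (SG.h1_of_values (by norm_num) _ SG.pow11 SG.sum11)
      (fun t => by rw [Nat.cast_ofNat]; exact SG.ne11 t) hgcd hpabc h
  · have : Fact (Nat.Prime 53) := ⟨by norm_num⟩
    exact SG.sophie_germain (q := 53) (by norm_num) (by decide)
      (SG.h1_of_values (by norm_num) _ SG.pow13 SG.sum13)
      (fun t => by rw [Nat.cast_ofNat]; exact SG.ne13 t) hgcd hpabc h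

end Fermat.Agent.Kummer
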